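/-
S15 / BRIDGE / BR-AN / AN-LIOUV (helper67), part 1: Liouville's theorem for lattice-periodic
functions with removable singularities at the lattice points.
-/
import Mathlib.Analysis.SpecialFunctions.Elliptic.Weierstrass

set_option autoImplicit false

noncomputable section

open scoped PeriodPair Topology
open Filter

namespace Fermat.Agent.S15.An.H67

/-- Liouville for elliptic functions: a function which is periodic for the lattice of `L`,
analytic off the lattice, and which agrees near `0` (off `0`) with a function analytic at `0`,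
is constant off the lattice. -/
theorem exists_const_of_periodic (L : PeriodPair) (G G₀ : ℂ → ℂ)
    (hper : ∀ (z : ℂ) (l : L.lattice), G (z + l) = G z)
    (han : ∀ z : ℂ, z ∉ L.lattice → AnalyticAt ℂ G z)
    (h0 : AnalyticAt ℂ G₀ 0) (heq : G =ᶠ[𝓝[≠] 0] G₀) :
    ∃ c : ℂ, ∀ z : ℂ, z ∉ L.lattice → G z = c := by
  classical
  set Gt : ℂ → ℂ := fun z => if z ∈ L.lattice then G₀ 0 else G z with hGt
  have hGt_per : ∀ (z : ℂ) (l : L.lattice), Gt (z + l) = Gt z := by
    intro z l
    simp only [hGt]
    have hiff : z + (l : ℂ) ∈ L.lattice ↔ z ∈ L.lattice :=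
      L.lattice.toAddSubgroup.add_mem_cancel_right (y := z) l.2
    by_cases hz : z ∈ L.lattice
    · rw [if_pos hz, if_pos (hiff.mpr hz)]
    · rw [if_neg hz, if_neg (fun h => hz (hiff.mp h)), hper]
  have hGt0 : AnalyticAt ℂ Gt 0 := by
    refine h0.congr ?_
    have h1 : ∀ᶠ z in 𝓝 (0 : ℂ), z ≠ 0 → G z = G₀ z := by
      have := heq
      rw [Filter.EventuallyEq, eventually_nhdsWithin_iff] at this
      exact this
    filter_upwards [h1, L.compl_lattice_sdiff_singleton_mem_nhds 0] with z hz hz'
    by_cases hz0 : z = 0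
    · subst hz0
      simp [hGt]
    · have hzL : z ∉ L.lattice := by
        intro h
        exact hz' ⟨h, hz0⟩
      simp only [hGt, if_neg hzL]
      exact (hz hz0).symm
  have hGt_an : ∀ x : ℂ, AnalyticAt ℂ Gt x := by
    intro x
    by_cases hx : x ∈ L.lattice
    · lift x to L.lattice using hx
      have h2 : AnalyticAt ℂ Gt (x.1 - x.1) := by rw [sub_self]; exact hGt0
      have h3 : AnalyticAt ℂ (fun z : ℂ => z - x.1) x.1 := by fun_prop
      have h4 := h2.comp (f := (· - x.1)) h3
      refine h4.congr (Filter.Eventually.of_forall fun a => ?_)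
      simp only [Function.comp]
      rw [← hGt_per (a - x.1) x, sub_add_cancel]
    · refine (han x hx).congr ?_
      filter_upwards [L.isClosed_lattice.isOpen_compl.mem_nhds hx] with y hy
      have hy' : y ∉ L.lattice := hy
      simp only [hGt]
      rw [if_neg hy']
  have hdiff : Differentiable ℂ Gt := fun x => (hGt_an x).differentiableAt
  have hbdd := (IsZLattice.isCompact_range_of_periodic L.lattice Gt hdiff.continuous
    fun z w hw => by lift w to L.lattice using hw; exact hGt_per z w).isBounded
  refine ⟨Gt 0, fun z hz => ?_⟩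
  have := hdiff.apply_eq_apply_of_bounded hbdd z 0
  rw [← this]
  simp only [hGt]
  rw [if_neg hz]

/-- An even function analytic at `0` is, near `0`, of the form `f 0 + z ^ 2 * g z` with `g`
analytic at `0`. -/
theorem exists_sq_of_even (f : ℂ → ℂ) (hf : AnalyticAt ℂ f 0)
    (heven : ∀ᶠ z in 𝓝 (0 : ℂ), f (-z) = f z) :
    ∃ g : ℂ → ℂ, AnalyticAt ℂ g 0 ∧ ∀ᶠ z in 𝓝 (0 : ℂ), f z = f 0 + z ^ 2 * g z := by
  have hd : AnalyticAt ℂ (fun z => f z - f 0) 0 := by fun_prop
  have hord : ((2 : ℕ) : ℕ∞) ≤ analyticOrderAt (fun z => f z - f 0) 0 := by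
    rw [natCast_le_analyticOrderAt_iff_iteratedDeriv_eq_zero hd]
    intro i hi
    interval_cases i
    · simp
    · rw [iteratedDeriv_one]
      have hderiv : deriv (fun z => f z - f 0) 0 = deriv f 0 := by
        rw [deriv_sub_const]
      rw [hderiv]
      -- derivative of an even function vanishes at 0
      have h1 : deriv (fun z => f (-z)) 0 = deriv f 0 := by
        apply Filter.EventuallyEq.deriv_eq
        exact heven
      have h2 : deriv (fun z => f (-z)) 0 = - deriv f (-0) := by
        have := deriv_comp_neg f (0 : ℂ)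
        simpa using this
      rw [neg_zero] at h2
      have h3 : deriv f 0 = - deriv f 0 := by rw [← h1, h2, neg_neg]; exact h2 ▸ h1 ▸ rfl
      have h4 : (2 : ℂ) * deriv f 0 = 0 := by linear_combination h3
      simpa using h4
  obtain ⟨g, hg, hgeq⟩ := (natCast_le_analyticOrderAt hd).mp hord
  refine ⟨g, hg, ?_⟩
  filter_upwards [hgeq] with z hz
  simp only [sub_zero, smul_eq_mul] at hz
  linear_combination hz

end Fermat.Agent.S15.An.H67
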