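/-
S15 / BRIDGE / BR-AN (coordinator helper67): complex uniformisation of the pair `(E, ⟨Q⟩)`.
Shared definitions and the EXACT statements of the sub-packages.
Plan: NOTES/plan/S15_BRIDGE.md §2.

Mathlib: `PeriodPair`, `℘[L]`, `℘'[L]`, `L.g₂`, `L.g₃`, `L.derivWeierstrassP_sq`.
-/
import Mathlib.Analysis.SpecialFunctions.Elliptic.Weierstrass
import Fermat.Agent.S15.BridgeDefs
import Fermat.Agent.S20.H29_Lattice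

set_option autoImplicit false

noncomputable section

open UpperHalfPlane
open scoped PeriodPair

namespace Fermat.Agent.S15.An

/-! ### The Weierstrass function -/

/-- (AN-ADD) the addition theorem, projective form. -/
def Stmt_add : Prop :=
  ∀ (L : PeriodPair) (z w : ℂ), z ∉ L.lattice → w ∉ L.lattice → z + w ∉ L.lattice →
    (℘[L] (z + w) + ℘[L] z + ℘[L] w) * (℘[L] z - ℘[L] w) ^ 2 =
      (1 / 4) * (℘'[L] z - ℘'[L] w) ^ 2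

/-- (AN-DUP) the duplication formula, projective form (`℘'' = 6 ℘² - g₂/2`). -/
def Stmt_dup : Prop :=
  ∀ (L : PeriodPair) (z : ℂ), z ∉ L.lattice → 2 * z ∉ L.lattice →
    (℘[L] (2 * z) + 2 * ℘[L] z) * ℘'[L] z ^ 2 = (1 / 4) * (6 * ℘[L] z ^ 2 - L.g₂ / 2) ^ 2

/-- (AN-INJ) `℘(a) = ℘(b)` implies `a ≡ ± b`. -/
def Stmt_inj : Prop :=
  ∀ (L : PeriodPair) (a b : ℂ), a ∉ L.lattice → b ∉ L.lattice → ℘[L] a = ℘[L] b →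
    a - b ∈ L.lattice ∨ a + b ∈ L.lattice

/-- (AN-SURJ) `℘` takes every value. -/
def Stmt_surj : Prop :=
  ∀ (L : PeriodPair) (c : ℂ), ∃ z : ℂ, z ∉ L.lattice ∧ ℘[L] z = c

/-- (AN-UNIF) every pair `(g₂, g₃)` with `g₂ g₃ ≠ 0` and nonzero discriminant comes from a
lattice. -/
def Stmt_unif : Prop :=
  ∀ g2 g3 : ℂ, g2 ≠ 0 → g3 ≠ 0 → g2 ^ 3 - 27 * g3 ^ 2 ≠ 0 →
    ∃ L : PeriodPair, L.g₂ = g2 ∧ L.g₃ = g3

/-- The `j`-invariant of a lattice. -/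
def jL (L : PeriodPair) : ℂ := 1728 * L.g₂ ^ 3 / (L.g₂ ^ 3 - 27 * L.g₃ ^ 2)

/-- (AN-J) the `j`-invariant of the lattice `c (ℤ τ + ℤ)` is `j(τ)`. -/
def Stmt_jL : Prop :=
  ∀ (c : ℂ) (hc : c ≠ 0) (τ : ℍ),
    jL (Fermat.Agent.S20.H29.periodPair c hc τ) = Fermat.Agent.S24.jAn τ

/-! ### The quotient lattice -/

/-- `Ξ(e) = ∏_{k=1}^{p-1} (℘(k z₀) - e)`. -/
def XiAn (L : PeriodPair) (p : ℕ) (z₀ e : ℂ) : ℂ :=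
  ∏ k ∈ Finset.Ico 1 p, (℘[L] ((k : ℂ) * z₀) - e)

/-- The root difference `e'_j - e'_i` of the quotient lattice. -/
def cdiff (L : PeriodPair) (p : ℕ) (z₀ e e' e'' : ℂ) : ℂ :=
  (e' - e) ^ p * XiAn L p z₀ e'' / (XiAn L p z₀ e * XiAn L p z₀ e')

/-- (AN-LIOUV) the `j`-invariant of the lattice `Λ' = Λ + ℤ z₀` (`p z₀ ∈ Λ`, `p` odd) is given
by the product formula.  [`℘_{Λ'}(z) - e'_i = ∏_{k mod p} (℘_Λ(z + k z₀) - e_i) / Ξ(e_i)` by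
Liouville; evaluate at the half periods, using
`(℘(z + ω_j) - e_j) (℘(z) - e_j) = (e_j - e_i) (e_j - e_l)`] -/
def Stmt_liouv : Prop :=
  ∀ (L L' : PeriodPair) (p : ℕ) (z₀ : ℂ), p.Prime → p ≠ 2 →
    z₀ ∉ L.lattice → (p : ℂ) * z₀ ∈ L.lattice →
    (∀ z : ℂ, z ∈ L'.lattice ↔ ∃ k : ℤ, z - (k : ℂ) * z₀ ∈ L.lattice) →
    ∀ e₁ e₂ e₃ : ℂ,
      (∀ x : ℂ, 4 * x ^ 3 - L.g₂ * x - L.g₃ = 4 * ((x - e₁) * (x - e₂) * (x - e₃))) →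
      jL L' = jOfDiff (cdiff L p z₀ e₁ e₂ e₃) (cdiff L p z₀ e₁ e₃ e₂) (cdiff L p z₀ e₂ e₃ e₁)

/-- (AN-BASIS) the lattices `Λ ⊂ Λ' = Λ + ℤ z₀` are homothetic to `ℤ p τ₁ + ℤ ⊂ ℤ τ₁ + ℤ`. -/
def Stmt_basis : Prop :=
  ∀ (L : PeriodPair) (p : ℕ) (z₀ : ℂ), p.Prime →
    z₀ ∉ L.lattice → (p : ℂ) * z₀ ∈ L.lattice →
    ∃ (L' : PeriodPair) (τ₁ τ₂ : ℍ),
      (∀ z : ℂ, z ∈ L'.lattice ↔ ∃ k : ℤ, z - (k : ℂ) * z₀ ∈ L.lattice) ∧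
      (τ₂ : ℂ) = (p : ℂ) * (τ₁ : ℂ) ∧
      jL L' = Fermat.Agent.S24.jAn τ₁ ∧ jL L = Fermat.Agent.S24.jAn τ₂

/-! ### The ladder -/

/-- (AN-LADDER) a point `Q` of exact order `p` of `E(ℚ̄)` is `(℘(z₀), ·)` for some `z₀` with
`p z₀ ∈ Λ`, and `x(k Q) + b₂/12 = ℘(k z₀)` for `0 < k < p`.  Here `Λ` is any lattice with
`g₂(Λ) = c₄/12`, `g₃(Λ) = c₆/216`  (`x_short = x + b₂/12`, `y_short = 2 y + a₁ x + a₃`).
[AN-SURJ, AN-ADD/AN-DUP in x-only form, AN-INJ + the algebraic x-only ladder] -/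
def Stmt_ladder : Prop :=
  ∀ (p : ℕ), p.Prime → p ≠ 2 → ∀ (W : WeierstrassCurve ℤ), W.Δ ≠ 0 →
  ∀ Q : (EBar W).Point, addOrderOf Q = p →
  ∀ L : PeriodPair, L.g₂ = (W.c₄ : ℂ) / 12 → L.g₃ = (W.c₆ : ℂ) / 216 →
    ∃ z₀ : ℂ, z₀ ∉ L.lattice ∧ (p : ℂ) * z₀ ∈ L.lattice ∧
      ∀ k : ℕ, 0 < k → k < p → (k : ℂ) * z₀ ∉ L.lattice ∧
        ℘[L] ((k : ℂ) * z₀) =
          Fermat.Agent.S24.iotaC
            (Fermat.Agent.Lib.Torsion.H11.xc (EBar W) (k • Q)) + (W.b₂ : ℂ) / 12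

end Fermat.Agent.S15.An
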