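/-
S15 / BRIDGE / BR-AN, leaf AN-DUP (helper11): the duplication formula for `℘`, as the limit
`w → z` of the addition theorem (AN-ADD), together with `℘'' = 6 ℘² - g₂/2`.
-/
import Fermat.Agent.S15.An.Defs
import Mathlib.Analysis.Normed.Module.Connected
import Mathlib.Analysis.Calculus.DSlope
import Mathlib.Analysis.Calculus.MeanValue
import Mathlib.Analysis.Analytic.IsolatedZeros
import Mathlib.Analysis.Analytic.Uniqueness
import Mathlib.Analysis.Meromorphic.Order

set_option autoImplicit false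

noncomputable section

open Filter Topology
open scoped PeriodPair

namespace Fermat.Agent.S15.An.H11

variable (L : PeriodPair)

/-- Two functions which agree on a punctured neighbourhood of a point of continuity agree
there. -/
lemma eq_of_eventuallyEq_punctured {f g : ℂ → ℂ} {x : ℂ} (h : f =ᶠ[𝓝[≠] x] g)
    (hf : ContinuousAt f x) (hg : ContinuousAt g x) : f x = g x := by
  have h1 : Tendsto f (𝓝[≠] x) (𝓝 (f x)) := hf.tendsto.mono_left nhdsWithin_le_nhds
  have h2 : Tendsto g (𝓝[≠] x) (𝓝 (g x)) := hg.tendsto.mono_left nhdsWithin_le_nhds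
  exact tendsto_nhds_unique (h1.congr' h) h2

lemma compl_lattice_mem_nhds {z : ℂ} (hz : z ∉ L.lattice) : (L.lattice : Set ℂ)ᶜ ∈ 𝓝 z :=
  L.isClosed_lattice.isOpen_compl.mem_nhds hz

lemma isPreconnected_compl_lattice : IsPreconnected (L.lattice : Set ℂ)ᶜ := by
  have hc : (L.lattice : Set ℂ).Countable := by
    have : Countable L.lattice := L.latticeEquivProd.toEquiv.injective.countable
    exact Set.to_countable _
  have hr : 1 < Module.rank ℝ ℂ := by
    rw [Complex.rank_real_complex]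
    norm_num
  exact (hc.isPathConnected_compl_of_one_lt_rank hr).isConnected.isPreconnected

lemma hasDerivAt_P {x : ℂ} (hx : x ∉ L.lattice) : HasDerivAt ℘[L] (℘'[L] x) x := by
  have := (L.analyticOnNhd_weierstrassP x hx).differentiableAt.hasDerivAt
  rwa [L.deriv_weierstrassP] at this

lemma hasDerivAt_P' {x : ℂ} (hx : x ∉ L.lattice) : HasDerivAt ℘'[L] (deriv ℘'[L] x) x :=
  (L.analyticOnNhd_derivWeierstrassP x hx).differentiableAt.hasDerivAt

/-- `℘'` does not vanish identically near a point. -/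
lemma not_eventually_P'_eq_zero {z : ℂ} (hz : z ∉ L.lattice) :
    ¬ (∀ᶠ w in 𝓝 z, ℘'[L] w = 0) := by
  intro h0
  have hU := isPreconnected_compl_lattice L
  have hopen : IsOpen (L.lattice : Set ℂ)ᶜ := L.isClosed_lattice.isOpen_compl
  have h1 : Set.EqOn ℘'[L] 0 (L.lattice : Set ℂ)ᶜ :=
    L.analyticOnNhd_derivWeierstrassP.eqOn_zero_of_preconnected_of_eventuallyEq_zero hU hz h0
  have h2 : ∀ x ∈ (L.lattice : Set ℂ)ᶜ, ℘[L] x = ℘[L] z := by
    intro x hx
    refine hopen.is_const_of_deriv_eq_zero hU L.differentiableOn_weierstrassP ?_ hx hz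
    intro y hy
    rw [L.deriv_weierstrassP]
    exact h1 hy
  have h3 : meromorphicOrderAt ℘[L] 0 = -2 := L.order_weierstrassP 0 (zero_mem _)
  have h4 : ℘[L] =ᶠ[𝓝[≠] 0] fun _ => ℘[L] z := by
    have hm := L.compl_lattice_sdiff_singleton_mem_nhds 0
    filter_upwards [nhdsWithin_le_nhds hm, self_mem_nhdsWithin] with w hw hw0
    apply h2
    intro hwL
    exact hw ⟨hwL, hw0⟩
  rw [meromorphicOrderAt_congr h4] at h3
  classical
  rw [meromorphicOrderAt_const] at h3
  split_ifs at h3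
  · exact absurd h3 (by decide)
  · exact absurd h3 (by decide)

/-- `℘'' = 6 ℘² - g₂/2`. -/
theorem deriv_P'_eq {z : ℂ} (hz : z ∉ L.lattice) :
    deriv ℘'[L] z = 6 * ℘[L] z ^ 2 - L.g₂ / 2 := by
  have hrel : ∀ w, w ∉ L.lattice →
      ℘'[L] w * (2 * deriv ℘'[L] w - 12 * ℘[L] w ^ 2 + L.g₂) = 0 := by
    intro w hw
    have hP := hasDerivAt_P L hw
    have hP' := hasDerivAt_P' L hw
    have e : (fun u => ℘'[L] u ^ 2) =ᶠ[𝓝 w]
        fun u => 4 * ℘[L] u ^ 3 - L.g₂ * ℘[L] u - L.g₃ := by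
      filter_upwards [compl_lattice_mem_nhds L hw] with u hu
      exact L.derivWeierstrassP_sq u hu
    have d1 : HasDerivAt (fun u => ℘'[L] u ^ 2) (2 * ℘'[L] w * deriv ℘'[L] w) w := by
      have := hP'.pow 2
      refine this.congr_deriv ?_
      simp
    have d2 : HasDerivAt (fun u => 4 * ℘[L] u ^ 3 - L.g₂ * ℘[L] u - L.g₃)
        (4 * (3 * ℘[L] w ^ 2 * ℘'[L] w) - L.g₂ * ℘'[L] w) w := by
      have := (((hP.pow 3).const_mul 4).sub (hP.const_mul L.g₂)).sub_const L.g₃
      refine this.congr_deriv ?_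
      simp
    have := (d1.congr_of_eventuallyEq e.symm).unique d2
    linear_combination this
  rcases (L.analyticOnNhd_derivWeierstrassP z hz).eventually_eq_zero_or_eventually_ne_zero with
    h0 | h0
  · exact absurd h0 (not_eventually_P'_eq_zero L hz)
  · have hD0 : (fun w => 2 * deriv ℘'[L] w - 12 * ℘[L] w ^ 2 + L.g₂) =ᶠ[𝓝[≠] z] fun _ => 0 := by
      filter_upwards [h0, nhdsWithin_le_nhds (compl_lattice_mem_nhds L hz)] with w hw1 hw2
      exact (mul_eq_zero.mp (hrel w hw2)).resolve_left hw1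
    have hc1 : ContinuousAt (deriv ℘'[L]) z :=
      (L.analyticOnNhd_derivWeierstrassP z hz).deriv.continuousAt
    have hc2 : ContinuousAt ℘[L] z := (L.analyticOnNhd_weierstrassP z hz).continuousAt
    have hDc : ContinuousAt (fun w => 2 * deriv ℘'[L] w - 12 * ℘[L] w ^ 2 + L.g₂) z := by
      fun_prop
    have h := eq_of_eventuallyEq_punctured hD0 hDc continuousAt_const
    have h' : 2 * deriv ℘'[L] z - 12 * ℘[L] z ^ 2 + L.g₂ = 0 := h
    linear_combination h' / 2

/-- The limit `w → z` of the addition theorem. -/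
theorem dup_deriv (hadd : Stmt_add) {z : ℂ} (hz : z ∉ L.lattice) (h2z : 2 * z ∉ L.lattice) :
    (℘[L] (2 * z) + 2 * ℘[L] z) * ℘'[L] z ^ 2 = (1 / 4) * deriv ℘'[L] z ^ 2 := by
  have hzz : z + z ∉ L.lattice := by rwa [← two_mul]
  have hφ0 : (fun w => (℘[L] (z + w) + ℘[L] z + ℘[L] w) * dslope ℘[L] z w ^ 2 -
      (1 / 4) * dslope ℘'[L] z w ^ 2) =ᶠ[𝓝[≠] z] fun _ => 0 := by
    have hcont : ContinuousAt (fun w : ℂ => z + w) z := by fun_prop
    have hm : ∀ᶠ w in 𝓝 z, z + w ∉ L.lattice := hcont.eventually (compl_lattice_mem_nhds L hzz)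
    filter_upwards [self_mem_nhdsWithin, nhdsWithin_le_nhds (compl_lattice_mem_nhds L hz),
      nhdsWithin_le_nhds hm] with w hne hw hzw
    have hne' : w - z ≠ 0 := sub_ne_zero.mpr hne
    have key := hadd L z w hz hw hzw
    rw [dslope_of_ne _ hne, dslope_of_ne _ hne, slope_def_field, slope_def_field]
    field_simp
    linear_combination 4 * key
  have hc1 : ContinuousAt (fun w => ℘[L] (z + w)) z := by
    have h1 : ContinuousAt ℘[L] (z + z) := (L.analyticOnNhd_weierstrassP (z + z) hzz).continuousAt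
    have h2 : ContinuousAt (fun w : ℂ => z + w) z := by fun_prop
    exact ContinuousAt.comp (f := fun w : ℂ => z + w) (g := ℘[L]) h1 h2
  have hc2 : ContinuousAt ℘[L] z := (L.analyticOnNhd_weierstrassP z hz).continuousAt
  have hc3 : ContinuousAt (dslope ℘[L] z) z :=
    continuousAt_dslope_same.mpr (L.analyticOnNhd_weierstrassP z hz).differentiableAt
  have hc4 : ContinuousAt (dslope ℘'[L] z) z :=
    continuousAt_dslope_same.mpr (L.analyticOnNhd_derivWeierstrassP z hz).differentiableAt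
  have hφc : ContinuousAt (fun w => (℘[L] (z + w) + ℘[L] z + ℘[L] w) * dslope ℘[L] z w ^ 2 -
      (1 / 4) * dslope ℘'[L] z w ^ 2) z := by
    fun_prop
  have h := eq_of_eventuallyEq_punctured hφ0 hφc continuousAt_const
  have h' : (℘[L] (z + z) + ℘[L] z + ℘[L] z) * dslope ℘[L] z z ^ 2 -
      (1 / 4) * dslope ℘'[L] z z ^ 2 = 0 := h
  rw [dslope_same, dslope_same, L.deriv_weierstrassP] at h'
  rw [two_mul]
  linear_combination h'

/-- **(AN-DUP)** from (AN-ADD). -/
theorem stmt_dup_of_add (hadd : Stmt_add) : Stmt_dup := by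
  intro L z hz h2z
  rw [dup_deriv L hadd hz h2z, deriv_P'_eq L hz]

end Fermat.Agent.S15.An.H11
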