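/-
S15 / BRIDGE / BR-AN (helper45): the leaves AN-ADD, AN-INJ, AN-SURJ in the shapes of
`S15/An/Defs.lean`.
-/
import Fermat.Agent.S15.An.Defs
import Fermat.Agent.S15.Bridge.H45_InjSurj

set_option autoImplicit false

noncomputable section

open scoped PeriodPair

namespace Fermat.Agent.S15.An.H45

/-- (AN-ADD) -/
theorem stmt_add : Stmt_add := fun L _ _ hz hw hzw => Fermat.Agent.S15.H45.wP_add L hz hw hzw

/-- (AN-INJ) -/
theorem stmt_inj : Stmt_inj := fun L _ _ ha hb h => Fermat.Agent.S15.H45.wP_inj L ha hb h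

/-- (AN-SURJ) -/
theorem stmt_surj : Stmt_surj := fun L c => Fermat.Agent.S15.H45.wP_surj L c

end Fermat.Agent.S15.An.H45
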