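/-
S15 / BRIDGE / BR-AN, leaf AN-DUP (helper11): unconditional form, from helper45's AN-ADD.
-/
import Fermat.Agent.S15.An.H11_Dup
import Fermat.Agent.S15.An.H45_AddInjSurj

set_option autoImplicit false

namespace Fermat.Agent.S15.An.H11

/-- **(AN-DUP)** -/
theorem stmt_dup : Stmt_dup := stmt_dup_of_add Fermat.Agent.S15.An.H45.stmt_add

end Fermat.Agent.S15.An.H11
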