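/-
S15 / BRIDGE / BR-AN, leaf AN-J (helper11): the `j`-invariant of the lattice `c (ℤ τ + ℤ)` is
`j(τ)`.
-/
import Fermat.Agent.S15.An.Defs
import Mathlib.NumberTheory.LSeries.HurwitzZetaValues
import Mathlib.NumberTheory.ModularForms.LevelOne.GradedRing

set_option autoImplicit false

noncomputable section

open UpperHalfPlane ModularForm EisensteinSeries
open scoped Real

namespace Fermat.Agent.S15.An.H11

lemma bernoulli'_six : bernoulli' 6 = 1 / 42 := by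
  have h2 : Nat.choose 6 2 = 15 := by decide
  have h3 : Nat.choose 6 3 = 20 := by decide
  have h4 : Nat.choose 6 4 = 15 := by decide
  have h5 : bernoulli' 5 = 0 := bernoulli'_eq_zero_of_odd (by decide) (by norm_num)
  rw [bernoulli'_def]
  norm_num [Finset.sum_range_succ, Finset.sum_range_zero, h2, h3, h4, h5]

lemma bernoulli_six : bernoulli 6 = 1 / 42 := by
  rw [bernoulli_eq_bernoulli'_of_ne_one (by norm_num), bernoulli'_six]

lemma riemannZeta_six : riemannZeta 6 = (π : ℂ) ^ 6 / 945 := by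
  have h := riemannZeta_two_mul_nat (k := 3) (by norm_num)
  have e : ((2 : ℂ) * ((3 : ℕ) : ℂ)) = 6 := by norm_num
  rw [e] at h
  rw [h, bernoulli_six]
  have hf : ((2 * 3 : ℕ).factorial : ℂ) = 720 := by
    norm_num [Nat.factorial]
  rw [hf]
  push_cast
  ring

lemma g₂_periodPair (c : ℂ) (hc : c ≠ 0) (τ : ℍ) :
    (Fermat.Agent.S20.H29.periodPair c hc τ).g₂ = (c ^ 4)⁻¹ * (4 / 3 * (π : ℂ) ^ 4 * E₄ τ) := by
  rw [PeriodPair.g₂, Fermat.Agent.S20.H29.G_periodPair c hc τ (by norm_num : 3 ≤ 4)]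
  have e : (((4 : ℕ) : ℂ)) = 4 := by norm_num
  rw [e, riemannZeta_four]
  ring

lemma g₃_periodPair (c : ℂ) (hc : c ≠ 0) (τ : ℍ) :
    (Fermat.Agent.S20.H29.periodPair c hc τ).g₃ = (c ^ 6)⁻¹ * (8 / 27 * (π : ℂ) ^ 6 * E₆ τ) := by
  rw [PeriodPair.g₃, Fermat.Agent.S20.H29.G_periodPair c hc τ (by norm_num : 3 ≤ 6)]
  have e : (((6 : ℕ) : ℂ)) = 6 := by norm_num
  rw [e, riemannZeta_six]
  ring

/-- The discriminant `g₂³ - 27 g₃²` of the lattice `c (ℤ τ + ℤ)`. -/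
lemma disc_periodPair (c : ℂ) (hc : c ≠ 0) (τ : ℍ) :
    (Fermat.Agent.S20.H29.periodPair c hc τ).g₂ ^ 3 -
      27 * (Fermat.Agent.S20.H29.periodPair c hc τ).g₃ ^ 2 =
      (c ^ 12)⁻¹ * (64 / 27 * (π : ℂ) ^ 12) * (1728 * ModularForm.discriminant τ) := by
  rw [g₂_periodPair, g₃_periodPair, ModularForm.discriminant_eq_E₄_cube_sub_E₆_sq]
  field_simp
  ring

/-- **(AN-J)** -/
theorem stmt_jL : Stmt_jL := by
  intro c hc τ
  have hπ : (π : ℂ) ≠ 0 := by exact_mod_cast Real.pi_ne_zero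
  unfold jL
  rw [disc_periodPair, g₂_periodPair]
  unfold Fermat.Agent.S24.jAn
  have hk : (c ^ 12)⁻¹ * (64 / 27 * (π : ℂ) ^ 12) ≠ 0 :=
    mul_ne_zero (inv_ne_zero (pow_ne_zero _ hc)) (mul_ne_zero (by norm_num) (pow_ne_zero _ hπ))
  have e1 : 1728 * ((c ^ 4)⁻¹ * (4 / 3 * (π : ℂ) ^ 4 * E₄ τ)) ^ 3 =
      ((c ^ 12)⁻¹ * (64 / 27 * (π : ℂ) ^ 12) * 1728) * (E₄ τ) ^ 3 := by
    field_simp
    ring
  have e2 : (c ^ 12)⁻¹ * (64 / 27 * (π : ℂ) ^ 12) * (1728 * ModularForm.discriminant τ) =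
      ((c ^ 12)⁻¹ * (64 / 27 * (π : ℂ) ^ 12) * 1728) * ModularForm.discriminant τ := by ring
  rw [e1, e2, mul_div_mul_left _ _ (mul_ne_zero hk (by norm_num))]

end Fermat.Agent.S15.An.H11
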