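/-
S15 / BRIDGE / BR-AN, leaf AN-UNIF (helper11): every pair `(g₂, g₃)` with `g₂ g₃ ≠ 0` and
nonzero discriminant comes from a lattice.
-/
import Fermat.Agent.S15.An.H11_JL
import Fermat.Agent.S24.H27_JAn

set_option autoImplicit false

noncomputable section

open UpperHalfPlane ModularForm EisensteinSeries
open scoped Real

namespace Fermat.Agent.S15.An.H11

/-- Pure algebra: if `v² = u³` with `u v ≠ 0` and `c² = u / v` then `c⁻⁴ = u` and `c⁻⁶ = v`. -/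
lemma scale_of_sq_eq_cube {u v c : ℂ} (hu : u ≠ 0) (hv : v ≠ 0) (h : v ^ 2 = u ^ 3)
    (hc : c ^ 2 = u / v) : (c ^ 4)⁻¹ = u ∧ (c ^ 6)⁻¹ = v := by
  have h4 : c ^ 4 = (c ^ 2) ^ 2 := by ring
  have h6 : c ^ 6 = (c ^ 2) ^ 3 := by ring
  rw [h4, h6, hc]
  constructor
  · rw [div_pow, inv_div, h]
    field_simp
  · rw [div_pow, inv_div, ← h]
    field_simp

/-- **(AN-UNIF)** -/
theorem stmt_unif : Stmt_unif := by
  intro g2 g3 hg2 hg3 hdisc
  have hπ : (π : ℂ) ≠ 0 := by exact_mod_cast Real.pi_ne_zero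
  obtain ⟨τ, hτ⟩ := Fermat.Agent.S24.jAn_surjective (1728 * g2 ^ 3 / (g2 ^ 3 - 27 * g3 ^ 2))
  have hΔ : ModularForm.discriminant τ ≠ 0 := ModularForm.discriminant_ne_zero τ
  have hE : (1728 : ℂ) * ModularForm.discriminant τ = E₄ τ ^ 3 - E₆ τ ^ 2 := by
    rw [ModularForm.discriminant_eq_E₄_cube_sub_E₆_sq]
    ring
  have hj : E₄ τ ^ 3 / ModularForm.discriminant τ = 1728 * g2 ^ 3 / (g2 ^ 3 - 27 * g3 ^ 2) := hτ
  rw [div_eq_div_iff hΔ hdisc] at hj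
  -- the key relation
  have key : g2 ^ 3 * E₆ τ ^ 2 = 27 * g3 ^ 2 * E₄ τ ^ 3 := by
    linear_combination hj + g2 ^ 3 * hE
  have hE4 : E₄ τ ≠ 0 := by
    intro h0
    rw [h0] at hj hE
    have h1 : (1728 : ℂ) * g2 ^ 3 * ModularForm.discriminant τ = 0 := by
      linear_combination -hj
    have : g2 ^ 3 = 0 := by
      rcases mul_eq_zero.mp h1 with h | h
      · rcases mul_eq_zero.mp h with h' | h'
        · norm_num at h'
        · exact h'
      · exact absurd h hΔ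
    exact hg2 (pow_eq_zero_iff (by norm_num) |>.mp this)
  have hE6 : E₆ τ ≠ 0 := by
    intro h0
    rw [h0] at key
    have : (27 : ℂ) * g3 ^ 2 * E₄ τ ^ 3 = 0 := by linear_combination -key
    rcases mul_eq_zero.mp this with h | h
    · rcases mul_eq_zero.mp h with h' | h'
      · norm_num at h'
      · exact hg3 (pow_eq_zero_iff (by norm_num) |>.mp h')
    · exact hE4 (pow_eq_zero_iff (by norm_num) |>.mp h)
  set u : ℂ := g2 / (4 / 3 * (π : ℂ) ^ 4 * E₄ τ) with hu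
  set v : ℂ := g3 / (8 / 27 * (π : ℂ) ^ 6 * E₆ τ) with hv
  have ha : (4 / 3 * (π : ℂ) ^ 4 * E₄ τ) ≠ 0 :=
    mul_ne_zero (mul_ne_zero (by norm_num) (pow_ne_zero _ hπ)) hE4
  have hb : (8 / 27 * (π : ℂ) ^ 6 * E₆ τ) ≠ 0 :=
    mul_ne_zero (mul_ne_zero (by norm_num) (pow_ne_zero _ hπ)) hE6
  have hu0 : u ≠ 0 := div_ne_zero hg2 ha
  have hv0 : v ≠ 0 := div_ne_zero hg3 hb
  have huv : v ^ 2 = u ^ 3 := by
    rw [hu, hv, div_pow, div_pow, div_eq_div_iff (pow_ne_zero _ hb) (pow_ne_zero _ ha)]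
    linear_combination (-(64 / 729 : ℂ) * (π : ℂ) ^ 12) * key
  obtain ⟨c, hc⟩ : ∃ c : ℂ, c ^ 2 = u / v := IsAlgClosed.exists_pow_nat_eq _ (by norm_num)
  have hc0 : c ≠ 0 := by
    intro h0
    rw [h0] at hc
    have : u / v = 0 := by rw [← hc]; ring
    exact div_ne_zero hu0 hv0 this
  obtain ⟨h4, h6⟩ := scale_of_sq_eq_cube hu0 hv0 huv hc
  refine ⟨Fermat.Agent.S20.H29.periodPair c hc0 τ, ?_, ?_⟩
  · rw [g₂_periodPair, h4, hu]
    field_simp
  · rw [g₃_periodPair, h6, hv]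
    field_simp

end Fermat.Agent.S15.An.H11
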