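import Fermat.Agent.S15.An.Defs

/-!
# S15 / BRIDGE / BR-AN, leaf AN-BASIS (helper34)

`stmt_basis_of : Stmt_jL → Stmt_basis`: for a lattice `Λ` and `z₀ ∉ Λ` with `p z₀ ∈ Λ`, the lattices
`Λ ⊂ Λ' = Λ + ℤ z₀` are `c (ℤ p τ₁ + ℤ) ⊂ c (ℤ τ₁ + ℤ)` for some `τ₁ ∈ ℍ`, `c ≠ 0`
(elementary divisors by hand), and `jL` depends only on the lattice.
-/

set_option autoImplicit false

noncomputable section

open UpperHalfPlane
open scoped PeriodPair

namespace Fermat.Agent.S15.An.H34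

open Fermat.Agent.S15.An

/-- The lattice sums depend only on the lattice. -/
theorem G_congr (L L₂ : PeriodPair) (h : L.lattice = L₂.lattice) (n : ℕ) : L.G n = L₂.G n := by
  unfold PeriodPair.G
  exact tsum_congr_set_coe (fun l : ℂ => (l ^ n)⁻¹) (congrArg (fun S : Submodule ℤ ℂ => (S : Set ℂ)) h)

theorem jL_congr (L L₂ : PeriodPair) (h : L.lattice = L₂.lattice) : jL L = jL L₂ := by
  unfold jL PeriodPair.g₂ PeriodPair.g₃
  rw [G_congr L L₂ h 4, G_congr L L₂ h 6]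

/-- The two periods of a period pair have non-real quotient. -/
theorem im_div_ne_zero (L : PeriodPair) : (L.ω₁ / L.ω₂).im ≠ 0 := by
  intro h
  have hind := LinearIndependent.pair_iff.1 L.indep
  have hω₂ : L.ω₂ ≠ 0 := by
    intro h0
    have := hind 0 1 (by simp [h0])
    exact one_ne_zero this.2
  have hr : L.ω₁ / L.ω₂ = ((L.ω₁ / L.ω₂).re : ℂ) := by
    apply Complex.ext
    · simp
    · simp [h]
  have h1 : L.ω₁ = ((L.ω₁ / L.ω₂).re : ℂ) * L.ω₂ := by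
    rw [← hr]
    field_simp
  have := hind 1 (-(L.ω₁ / L.ω₂).re) (by
    simp only [one_smul, Complex.real_smul]
    push_cast
    linear_combination h1)
  exact one_ne_zero this.1

theorem im_div_swap_ne_zero (L : PeriodPair) : (L.ω₂ / L.ω₁).im ≠ 0 := by
  have h := im_div_ne_zero L
  intro h0
  apply h
  have : L.ω₁ / L.ω₂ = (L.ω₂ / L.ω₁)⁻¹ := by rw [inv_div]
  rw [this, Complex.inv_im, h0]
  simp

theorem core_aux (hJ : Stmt_jL) (L : PeriodPair) (u v : ℂ)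
    (huv : ∀ x, x ∈ L.lattice ↔ ∃ m n : ℤ, (m : ℂ) * u + (n : ℂ) * v = x)
    (p : ℕ) (hp : p.Prime) (z₀ : ℂ)
    (a b : ℤ) (hab : (p : ℂ) * z₀ = (a : ℂ) * u + (b : ℂ) * v)
    (x y : ℤ) (hxy : x * a + y * (p : ℤ) = 1) (ε : ℤ) (hε : ε * ε = 1) (hv : v ≠ 0)
    (hpos : 0 < (((u + ((x * b : ℤ) : ℂ) * v) / (p : ℂ)) / ((ε : ℂ) * v)).im) :
    ∃ (L' : PeriodPair) (τ₁ τ₂ : ℍ),
      (∀ z : ℂ, z ∈ L'.lattice ↔ ∃ k : ℤ, z - (k : ℂ) * z₀ ∈ L.lattice) ∧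
      (τ₂ : ℂ) = (p : ℂ) * (τ₁ : ℂ) ∧
      jL L' = Fermat.Agent.S24.jAn τ₁ ∧ jL L = Fermat.Agent.S24.jAn τ₂ := by
  have hp0 : (p : ℂ) ≠ 0 := Nat.cast_ne_zero.2 hp.ne_zero
  have hεC : (ε : ℂ) * (ε : ℂ) = 1 := by exact_mod_cast hε
  have hε0 : (ε : ℂ) ≠ 0 := by
    intro h
    rw [h, mul_zero] at hεC
    exact zero_ne_one hεC
  have hxyC : (x : ℂ) * (a : ℂ) + (y : ℂ) * (p : ℂ) = 1 := by exact_mod_cast hxy
  set η₁ : ℂ := (u + ((x * b : ℤ) : ℂ) * v) / (p : ℂ) with hη₁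
  set c : ℂ := (ε : ℂ) * v with hc
  have hc0 : c ≠ 0 := mul_ne_zero hε0 hv
  -- the key identities
  have I1 : (p : ℂ) * η₁ = u + (x : ℂ) * (b : ℂ) * v := by
    rw [hη₁]
    push_cast
    field_simp
  have I2 : η₁ = (x : ℂ) * z₀ + (y : ℂ) * u := by
    apply mul_left_cancel₀ hp0
    rw [I1]
    linear_combination (-(x : ℂ)) * hab - u * hxyC
  have I3 : z₀ = (a : ℂ) * η₁ + (y : ℂ) * (b : ℂ) * v := by
    apply mul_left_cancel₀ hp0
    linear_combination hab - (a : ℂ) * I1 - (b : ℂ) * v * hxyC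
  have I4 : v = (ε : ℂ) * c := by
    rw [hc, ← mul_assoc, hεC, one_mul]
  let τ₁ : ℍ := ⟨η₁ / c, hpos⟩
  have hpos2 : 0 < ((p : ℂ) * (η₁ / c)).im := by
    have : ((p : ℂ) * (η₁ / c)).im = (p : ℝ) * (η₁ / c).im := by
      simp [Complex.mul_im]
    rw [this]
    exact mul_pos (Nat.cast_pos.2 hp.pos) hpos
  let τ₂ : ℍ := ⟨(p : ℂ) * (η₁ / c), hpos2⟩
  have hτ₁ : c * (τ₁ : ℂ) = η₁ := by
    show c * (η₁ / c) = η₁
    field_simp
  have hτ₂ : c * (τ₂ : ℂ) = (p : ℂ) * η₁ := by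
    show c * ((p : ℂ) * (η₁ / c)) = (p : ℂ) * η₁
    field_simp
  refine ⟨Fermat.Agent.S20.H29.periodPair c hc0 τ₁, τ₁, τ₂, ?_, rfl, hJ c hc0 τ₁, ?_⟩
  · intro z
    rw [PeriodPair.mem_lattice]
    simp only [Fermat.Agent.S20.H29.periodPair_ω₁, Fermat.Agent.S20.H29.periodPair_ω₂, hτ₁]
    constructor
    · rintro ⟨m, n, rfl⟩
      refine ⟨m * x, (huv _).2 ⟨m * y, n * ε, ?_⟩⟩
      push_cast
      rw [hc]
      linear_combination (-(m : ℂ)) * I2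
    · rintro ⟨k, hk⟩
      obtain ⟨m, n, hmn⟩ := (huv _).1 hk
      refine ⟨k * a + m * p, (k * y * b - m * x * b + n) * ε, ?_⟩
      push_cast
      have hz : z = (k : ℂ) * z₀ + ((m : ℂ) * u + (n : ℂ) * v) := by
        rw [hmn]
        ring
      rw [hz]
      linear_combination (-(k : ℂ)) * I3 + (m : ℂ) * I1 -
        ((k : ℂ) * y * b - m * x * b + n) * I4
  · rw [← hJ c hc0 τ₂]
    apply jL_congr
    ext z
    rw [huv, PeriodPair.mem_lattice]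
    simp only [Fermat.Agent.S20.H29.periodPair_ω₁, Fermat.Agent.S20.H29.periodPair_ω₂, hτ₂]
    constructor
    · rintro ⟨m, n, rfl⟩
      refine ⟨m, (n - m * x * b) * ε, ?_⟩
      push_cast
      linear_combination (m : ℂ) * I1 - ((n : ℂ) - m * x * b) * I4
    · rintro ⟨m, n, rfl⟩
      refine ⟨m, m * x * b + n * ε, ?_⟩
      push_cast
      rw [hc]
      linear_combination (-(m : ℂ)) * I1

theorem core (hJ : Stmt_jL) (L : PeriodPair) (u v : ℂ)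
    (huv : ∀ x, x ∈ L.lattice ↔ ∃ m n : ℤ, (m : ℂ) * u + (n : ℂ) * v = x)
    (him : (u / v).im ≠ 0) (p : ℕ) (hp : p.Prime) (z₀ : ℂ)
    (a b : ℤ) (hab : (p : ℂ) * z₀ = (a : ℂ) * u + (b : ℂ) * v) (ha : ¬ (p : ℤ) ∣ a) :
    ∃ (L' : PeriodPair) (τ₁ τ₂ : ℍ),
      (∀ z : ℂ, z ∈ L'.lattice ↔ ∃ k : ℤ, z - (k : ℂ) * z₀ ∈ L.lattice) ∧
      (τ₂ : ℂ) = (p : ℂ) * (τ₁ : ℂ) ∧
      jL L' = Fermat.Agent.S24.jAn τ₁ ∧ jL L = Fermat.Agent.S24.jAn τ₂ := by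
  have hp0 : (p : ℂ) ≠ 0 := Nat.cast_ne_zero.2 hp.ne_zero
  have hpR : (0 : ℝ) < p := Nat.cast_pos.2 hp.pos
  have hv : v ≠ 0 := by
    rintro rfl
    simp at him
  have hcop : IsCoprime a (p : ℤ) :=
    ((Nat.prime_iff_prime_int.1 hp).coprime_iff_not_dvd.2 ha).symm
  obtain ⟨x, y, hxy⟩ := hcop
  -- the imaginary part of `η₁ / v`
  have hw : (((u + ((x * b : ℤ) : ℂ) * v) / (p : ℂ)) / v).im = (u / v).im / p := by
    have h1 : ((u + ((x * b : ℤ) : ℂ) * v) / (p : ℂ)) / v =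
        (u / v + ((x * b : ℤ) : ℂ)) / ((p : ℝ) : ℂ) := by
      push_cast
      field_simp
    rw [h1, Complex.div_ofReal_im, Complex.add_im, Complex.intCast_im, add_zero]
  rcases lt_or_gt_of_ne him with hneg | hpos
  · refine core_aux hJ L u v huv p hp z₀ a b hab x y hxy (-1) (by norm_num) hv ?_
    have h2 : ((u + ((x * b : ℤ) : ℂ) * v) / (p : ℂ)) / (((-1 : ℤ) : ℂ) * v) =
        -(((u + ((x * b : ℤ) : ℂ) * v) / (p : ℂ)) / v) := by
      push_cast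
      field_simp
    rw [h2, Complex.neg_im, hw]
    have : (u / v).im / p < 0 := div_neg_of_neg_of_pos hneg hpR
    linarith
  · refine core_aux hJ L u v huv p hp z₀ a b hab x y hxy 1 (by norm_num) hv ?_
    have h2 : ((u + ((x * b : ℤ) : ℂ) * v) / (p : ℂ)) / (((1 : ℤ) : ℂ) * v) =
        ((u + ((x * b : ℤ) : ℂ) * v) / (p : ℂ)) / v := by
      push_cast
      rw [one_mul]
    rw [h2, hw]
    exact div_pos hpos hpR

/-- **AN-BASIS**, from AN-J. -/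
theorem stmt_basis_of (hJ : Stmt_jL) : Stmt_basis := by
  intro L p z₀ hp hz₀ hpz
  obtain ⟨a, b, hab⟩ := PeriodPair.mem_lattice.1 hpz
  have hp0 : (p : ℂ) ≠ 0 := Nat.cast_ne_zero.2 hp.ne_zero
  by_cases ha : (p : ℤ) ∣ a
  · have hb : ¬ (p : ℤ) ∣ b := by
      intro hb
      obtain ⟨a', rfl⟩ := ha
      obtain ⟨b', rfl⟩ := hb
      apply hz₀
      rw [PeriodPair.mem_lattice]
      refine ⟨a', b', ?_⟩
      apply mul_left_cancel₀ hp0
      rw [← hab]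
      push_cast
      ring
    refine core hJ L L.ω₂ L.ω₁ ?_ (im_div_swap_ne_zero L) p hp z₀ b a ?_ hb
    · intro x
      rw [PeriodPair.mem_lattice]
      constructor
      · rintro ⟨m, n, rfl⟩
        exact ⟨n, m, by ring⟩
      · rintro ⟨m, n, rfl⟩
        exact ⟨n, m, by ring⟩
    · rw [← hab]
      ring
  · refine core hJ L L.ω₁ L.ω₂ (fun x => PeriodPair.mem_lattice) (im_div_ne_zero L) p hp z₀ a b
      hab.symm ha

end Fermat.Agent.S15.An.H34
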