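import Fermat.Agent.S15.An.H34_Basis
import Fermat.Agent.S15.An.H11_JL

/-!
# S15 / BRIDGE / BR-AN, leaf AN-BASIS, unconditional (helper34, with helper11's AN-J)
-/

set_option autoImplicit false

namespace Fermat.Agent.S15.An.H34

/-- **AN-BASIS.** -/
theorem stmt_basis : Fermat.Agent.S15.An.Stmt_basis :=
  stmt_basis_of Fermat.Agent.S15.An.H11.stmt_jL

end Fermat.Agent.S15.An.H34
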