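/-
S15 / BRIDGE / BR-AN / AN-LIOUV (helper67), part 2: the product
`F_e(z) = ∏_{k mod p} (℘_Λ(z + k z₀) - e)` and the identity
`F_e(z) - Ξ(e) ℘_Λ'(z) = const` for `Λ' = Λ + ℤ z₀`.
-/
import Fermat.Agent.S15.An.Defs
import Fermat.Agent.S15.An.H67_Liouville

set_option autoImplicit false

noncomputable section

open scoped PeriodPair Topology
open Filter

namespace Fermat.Agent.S15.An.H67

/-- The hypotheses of AN-LIOUV on `Λ ⊂ Λ' = Λ + ℤ z₀`. -/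
structure Setup (L L' : PeriodPair) (p : ℕ) (z₀ : ℂ) : Prop where
  hp : p.Prime
  hp2 : p ≠ 2
  hz₀ : z₀ ∉ L.lattice
  hpz₀ : (p : ℂ) * z₀ ∈ L.lattice
  hL' : ∀ z : ℂ, z ∈ L'.lattice ↔ ∃ k : ℤ, z - (k : ℂ) * z₀ ∈ L.lattice

namespace Setup

variable {L L' : PeriodPair} {p : ℕ} {z₀ : ℂ} (S : Setup L L' p z₀)
include S

theorem sub_lattice {z : ℂ} (hz : z ∈ L.lattice) : z ∈ L'.lattice :=
  (S.hL' z).mpr ⟨0, by simpa using hz⟩

theorem z₀_mem : z₀ ∈ L'.lattice :=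
  (S.hL' z₀).mpr ⟨1, by simp⟩

theorem int_mul_mem (k : ℤ) : (k : ℂ) * z₀ ∈ L'.lattice :=
  (S.hL' _).mpr ⟨k, by simp⟩

theorem int_mul_p_mem (k : ℤ) : (k : ℂ) * ((p : ℂ) * z₀) ∈ L.lattice := by
  have := L.lattice.smul_mem k S.hpz₀
  simpa [zsmul_eq_mul] using this

theorem int_mul_notMem (n : ℤ) (hn : ¬ (p : ℤ) ∣ n) : (n : ℂ) * z₀ ∉ L.lattice := by
  intro h
  have hcop : IsCoprime n (p : ℤ) := by
    have hp' : Prime (p : ℤ) := Nat.prime_iff_prime_int.mp S.hp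
    exact (hp'.coprime_iff_not_dvd.mpr hn).symm
  obtain ⟨a, b, hab⟩ := hcop
  apply S.hz₀
  have h1 : (a : ℂ) * ((n : ℂ) * z₀) ∈ L.lattice := by
    have := L.lattice.smul_mem a h
    simpa [zsmul_eq_mul] using this
  have h2 := S.int_mul_p_mem b
  have h3 : z₀ = (a : ℂ) * ((n : ℂ) * z₀) + (b : ℂ) * ((p : ℂ) * z₀) := by
    have : ((a * n + b * p : ℤ) : ℂ) = 1 := by rw [hab]; simp
    push_cast at this
    linear_combination (-z₀) * this
  rw [h3]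
  exact L.lattice.add_mem h1 h2

theorem nat_mul_notMem (k : ℕ) (hk0 : 0 < k) (hkp : k < p) : (k : ℂ) * z₀ ∉ L.lattice := by
  have := S.int_mul_notMem (k : ℤ) (by
    intro h
    have h' : p ∣ k := by exact_mod_cast h
    exact absurd (Nat.le_of_dvd hk0 h') (by omega))
  simpa using this

theorem add_int_mul_notMem {z : ℂ} (hz : z ∉ L'.lattice) (k : ℤ) :
    z + (k : ℂ) * z₀ ∉ L.lattice := by
  intro h
  apply hz
  refine (S.hL' z).mpr ⟨-k, ?_⟩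
  have : z - ((-k : ℤ) : ℂ) * z₀ = z + (k : ℂ) * z₀ := by push_cast; ring
  rw [this]
  exact h

theorem add_nat_mul_notMem {z : ℂ} (hz : z ∉ L'.lattice) (k : ℕ) :
    z + (k : ℂ) * z₀ ∉ L.lattice := by
  have := S.add_int_mul_notMem hz (k : ℤ)
  simpa using this

omit S in
/-- `℘_Λ` is invariant under translation by elements of `Λ`. -/
theorem wp_add_of_mem (L : PeriodPair) (z : ℂ) {l : ℂ} (hl : l ∈ L.lattice) :
    ℘[L] (z + l) = ℘[L] z :=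
  L.weierstrassP_add_coe z ⟨l, hl⟩

theorem wp_add_p (z : ℂ) : ℘[L] (z + (p : ℂ) * z₀) = ℘[L] z :=
  wp_add_of_mem L z S.hpz₀

end Setup

/-- `F_e(z) = ∏_{k < p} (℘(z + k z₀) - e)`. -/
def Fprod (L : PeriodPair) (p : ℕ) (z₀ e z : ℂ) : ℂ :=
  ∏ k ∈ Finset.range p, (℘[L] (z + (k : ℂ) * z₀) - e)

/-- `H_e(z) = ∏_{0 < k < p} (℘(z + k z₀) - e)`. -/
def Hprod (L : PeriodPair) (p : ℕ) (z₀ e z : ℂ) : ℂ :=
  ∏ k ∈ Finset.Ico 1 p, (℘[L] (z + (k : ℂ) * z₀) - e)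

theorem Hprod_zero (L : PeriodPair) (p : ℕ) (z₀ e : ℂ) : Hprod L p z₀ e 0 = XiAn L p z₀ e := by
  simp [Hprod, XiAn]

theorem Fprod_eq (L : PeriodPair) (p : ℕ) (hp : 0 < p) (z₀ e z : ℂ) :
    Fprod L p z₀ e z = (℘[L] z - e) * Hprod L p z₀ e z := by
  unfold Fprod Hprod
  rw [Finset.range_eq_Ico, Finset.prod_eq_prod_Ico_succ_bot hp]
  simp

namespace Setup

variable {L L' : PeriodPair} {p : ℕ} {z₀ : ℂ} (S : Setup L L' p z₀)
include S

theorem Fprod_add_z₀ (e z : ℂ) : Fprod L p z₀ e (z + z₀) = Fprod L p z₀ e z := by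
  obtain ⟨m, rfl⟩ : ∃ m, p = m + 1 := ⟨p - 1, by have := S.hp.pos; omega⟩
  unfold Fprod
  rw [Finset.prod_range_succ, Finset.prod_range_succ']
  have h1 : ∀ k : ℕ, z + z₀ + (k : ℂ) * z₀ = z + ((k + 1 : ℕ) : ℂ) * z₀ := by
    intro k; push_cast; ring
  simp only [h1]
  have h2 : ℘[L] (z + ((m + 1 : ℕ) : ℂ) * z₀) = ℘[L] (z + ((0 : ℕ) : ℂ) * z₀) := by
    rw [S.wp_add_p z]; simp
  rw [h2]

theorem Fprod_sub_z₀ (e z : ℂ) : Fprod L p z₀ e (z - z₀) = Fprod L p z₀ e z := by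
  rw [← S.Fprod_add_z₀ e (z - z₀), sub_add_cancel]

theorem Fprod_add_int_mul (e z : ℂ) (k : ℤ) :
    Fprod L p z₀ e (z + (k : ℂ) * z₀) = Fprod L p z₀ e z := by
  induction k using Int.induction_on with
  | zero => simp
  | succ n ih =>
    have : z + ((n + 1 : ℤ) : ℂ) * z₀ = (z + ((n : ℤ) : ℂ) * z₀) + z₀ := by push_cast; ring
    rw [this, S.Fprod_add_z₀, ih]
  | pred n ih =>
    have : z + ((-n - 1 : ℤ) : ℂ) * z₀ = (z + ((-n : ℤ) : ℂ) * z₀) - z₀ := by push_cast; ring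
    rw [this, S.Fprod_sub_z₀, ih]

omit S in
theorem Fprod_add_of_mem (L : PeriodPair) (p : ℕ) (z₀ e z : ℂ) {l : ℂ} (hl : l ∈ L.lattice) :
    Fprod L p z₀ e (z + l) = Fprod L p z₀ e z := by
  unfold Fprod
  refine Finset.prod_congr rfl fun k _ => ?_
  have : z + l + (k : ℂ) * z₀ = (z + (k : ℂ) * z₀) + l := by ring
  rw [this, wp_add_of_mem L _ hl]

theorem Fprod_periodic (e z : ℂ) {l : ℂ} (hl : l ∈ L'.lattice) :
    Fprod L p z₀ e (z + l) = Fprod L p z₀ e z := by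
  obtain ⟨k, hk⟩ := (S.hL' l).mp hl
  have : z + l = (z + (l - (k : ℂ) * z₀)) + (k : ℂ) * z₀ := by ring
  rw [this, S.Fprod_add_int_mul, Fprod_add_of_mem L p z₀ e z hk]

theorem Fprod_analyticAt (e : ℂ) {z : ℂ} (hz : z ∉ L'.lattice) :
    AnalyticAt ℂ (Fprod L p z₀ e) z := by
  unfold Fprod
  apply Finset.analyticAt_fun_prod
  intro k _
  have h1 : AnalyticAt ℂ ℘[L] (z + (k : ℂ) * z₀) :=
    L.analyticOnNhd_weierstrassP _ (S.add_nat_mul_notMem hz k)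
  have h2 : AnalyticAt ℂ (fun w : ℂ => w + (k : ℂ) * z₀) z := by fun_prop
  have h3 : AnalyticAt ℂ (fun w : ℂ => ℘[L] (w + (k : ℂ) * z₀)) z :=
    h1.comp (f := fun w : ℂ => w + (k : ℂ) * z₀) h2
  exact h3.sub analyticAt_const

theorem Hprod_analyticAt_zero (e : ℂ) : AnalyticAt ℂ (Hprod L p z₀ e) 0 := by
  unfold Hprod
  apply Finset.analyticAt_fun_prod
  intro k hk
  rw [Finset.mem_Ico] at hk
  have h1 : AnalyticAt ℂ ℘[L] ((0 : ℂ) + (k : ℂ) * z₀) := by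
    rw [zero_add]
    exact L.analyticOnNhd_weierstrassP _ (S.nat_mul_notMem k (by omega) hk.2)
  have h2 : AnalyticAt ℂ (fun w : ℂ => w + (k : ℂ) * z₀) 0 := by fun_prop
  have h3 : AnalyticAt ℂ (fun w : ℂ => ℘[L] (w + (k : ℂ) * z₀)) 0 :=
    h1.comp (f := fun w : ℂ => w + (k : ℂ) * z₀) h2
  exact h3.sub analyticAt_const

theorem Hprod_neg (e z : ℂ) : Hprod L p z₀ e (-z) = Hprod L p z₀ e z := by
  unfold Hprod
  have hp1 : 1 ≤ p := S.hp.pos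
  -- reflect k ↦ p - k
  have hrefl := Finset.prod_Ico_reflect (fun k => ℘[L] (z + (k : ℂ) * z₀) - e) 1 (n := p)
    (m := p) (by omega)
  have hIco : Finset.Ico (p + 1 - p) (p + 1 - 1) = Finset.Ico 1 p := by
    congr 1 <;> omega
  rw [hIco] at hrefl
  rw [← hrefl]
  refine Finset.prod_congr rfl fun k hk => ?_
  rw [Finset.mem_Ico] at hk
  congr 1
  have hcast : ((p - k : ℕ) : ℂ) = (p : ℂ) - (k : ℂ) := by
    rw [Nat.cast_sub (by omega)]
  rw [hcast, ← L.weierstrassP_neg]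
  have : -(-z + (k : ℂ) * z₀) = (z + ((p : ℂ) - (k : ℂ)) * z₀) + ((-1 : ℤ) : ℂ) * ((p : ℂ) * z₀) := by
    push_cast; ring
  rw [this, wp_add_of_mem L _ (S.int_mul_p_mem (-1))]

/-- The key identity: `F_e - Ξ(e) ℘_Λ'` is constant off `Λ'`. -/
theorem exists_const (e : ℂ) :
    ∃ c : ℂ, ∀ z : ℂ, z ∉ L'.lattice →
      Fprod L p z₀ e z - XiAn L p z₀ e * ℘[L'] z = c := by
  obtain ⟨M, hM, hMeq⟩ := exists_sq_of_even (Hprod L p z₀ e) (S.Hprod_analyticAt_zero e)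
    (Filter.Eventually.of_forall fun z => S.Hprod_neg e z)
  rw [Hprod_zero] at hMeq
  refine exists_const_of_periodic L'
    (fun z => Fprod L p z₀ e z - XiAn L p z₀ e * ℘[L'] z)
    (fun z => M z + (℘[L - (0 : ℂ)] z - e) * Hprod L p z₀ e z
      - XiAn L p z₀ e * ℘[L' - (0 : ℂ)] z) ?_ ?_ ?_ ?_
  · intro z l
    show Fprod L p z₀ e (z + l) - XiAn L p z₀ e * ℘[L'] (z + l) =
      Fprod L p z₀ e z - XiAn L p z₀ e * ℘[L'] z
    rw [S.Fprod_periodic e z l.2, L'.weierstrassP_add_coe]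
  · intro z hz
    have h1 := S.Fprod_analyticAt e hz
    have h2 : AnalyticAt ℂ ℘[L'] z := L'.analyticOnNhd_weierstrassP _ hz
    exact h1.sub (analyticAt_const.mul h2)
  · have h1 : AnalyticAt ℂ ℘[L - (0 : ℂ)] 0 := L.analyticAt_weierstrassPExcept 0
    have h2 : AnalyticAt ℂ ℘[L' - (0 : ℂ)] 0 := L'.analyticAt_weierstrassPExcept 0
    have h3 := S.Hprod_analyticAt_zero e
    exact (hM.add ((h1.sub analyticAt_const).mul h3)).sub (analyticAt_const.mul h2)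
  · rw [Filter.EventuallyEq, eventually_nhdsWithin_iff]
    filter_upwards [hMeq] with z hz hz0
    have hz0' : z ≠ 0 := hz0
    show Fprod L p z₀ e z - XiAn L p z₀ e * ℘[L'] z =
      M z + (℘[L - (0 : ℂ)] z - e) * Hprod L p z₀ e z - XiAn L p z₀ e * ℘[L' - (0 : ℂ)] z
    rw [Fprod_eq L p S.hp.pos, hz]
    have e1 := L.weierstrassPExcept_def (0 : L.lattice) z
    have e2 := L'.weierstrassPExcept_def (0 : L'.lattice) z
    simp only [ZeroMemClass.coe_zero, sub_zero] at e1 e2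
    rw [e1, e2]
    field_simp
    ring

end Setup

end Fermat.Agent.S15.An.H67
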