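/-
S15 / BRIDGE / BR-AN / AN-LIOUV (helper67), part 3: half periods, the translation formula and
the differences `e'_j - e'_i` of the quotient lattice.
-/
import Fermat.Agent.S15.An.H67_LiouvProd

set_option autoImplicit false

noncomputable section

open scoped PeriodPair Topology
open Filter

namespace Fermat.Agent.S15.An.H67

/-- `h` is a half period of `L`. -/
structure IsHalf (L : PeriodPair) (h : ℂ) : Prop where
  notMem : h ∉ L.lattice
  two_mul : 2 * h ∈ L.lattice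

namespace IsHalf

variable {L : PeriodPair} {h : ℂ}

theorem deriv_eq_zero (H : IsHalf L h) : ℘'[L] h = 0 := by
  have h1 : ℘'[L] (h - 2 * h) = ℘'[L] h := L.derivWeierstrassP_sub_coe h ⟨2 * h, H.two_mul⟩
  have h2 : h - 2 * h = -h := by ring
  rw [h2, L.derivWeierstrassP_neg] at h1
  have h3 : (2 : ℂ) * ℘'[L] h = 0 := by linear_combination -h1
  simpa using h3

theorem cubic (H : IsHalf L h) : 4 * ℘[L] h ^ 3 - L.g₂ * ℘[L] h - L.g₃ = 0 := by
  have := L.derivWeierstrassP_sq h H.notMem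
  rw [H.deriv_eq_zero] at this
  linear_combination -this

theorem add_notMem {h' : ℂ} (H' : IsHalf L h') (hd : h - h' ∉ L.lattice) :
    h + h' ∉ L.lattice := by
  intro hmem
  apply hd
  have : h - h' = (h + h') - 2 * h' := by ring
  rw [this]
  exact L.lattice.sub_mem hmem H'.two_mul

theorem ne_of_inj (hinj : Stmt_inj) (H : IsHalf L h) {h' : ℂ} (H' : IsHalf L h')
    (hd : h - h' ∉ L.lattice) : ℘[L] h ≠ ℘[L] h' := by
  intro heq
  rcases hinj L h h' H.notMem H'.notMem heq with h1 | h1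
  · exact hd h1
  · exact IsHalf.add_notMem (h := h) H' hd h1

theorem add (H : IsHalf L h) {h' : ℂ} (H' : IsHalf L h') (hd : h - h' ∉ L.lattice) :
    IsHalf L (h + h') where
  notMem := IsHalf.add_notMem (h := h) H' hd
  two_mul := by
    have : 2 * (h + h') = 2 * h + 2 * h' := by ring
    rw [this]
    exact L.lattice.add_mem H.two_mul H'.two_mul

end IsHalf

/-- Two distinct roots `a`, `b` of `4 x³ - g₂ x - g₃`: the cubic factors with third root
`-a - b`. -/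
theorem cubic_factor {g2 g3 a b : ℂ} (ha : 4 * a ^ 3 - g2 * a - g3 = 0)
    (hb : 4 * b ^ 3 - g2 * b - g3 = 0) (hab : a ≠ b) (x : ℂ) :
    4 * x ^ 3 - g2 * x - g3 = 4 * ((x - a) * (x - b) * (x - (-a - b))) := by
  have h1 : (a - b) * (4 * (a ^ 2 + a * b + b ^ 2) - g2) = 0 := by
    linear_combination ha - hb
  have h2 : 4 * (a ^ 2 + a * b + b ^ 2) - g2 = 0 :=
    (mul_eq_zero.mp h1).resolve_left (sub_ne_zero.mpr hab)
  have hg2 : g2 = 4 * (a ^ 2 + a * b + b ^ 2) := by linear_combination -h2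
  have hg3 : g3 = 4 * a ^ 3 - g2 * a := by linear_combination -ha
  rw [hg3, hg2]
  ring

/-- Three distinct roots of `4 x³ - g₂ x - g₃` sum to zero. -/
theorem cubic_sum {g2 g3 a b c : ℂ} (ha : 4 * a ^ 3 - g2 * a - g3 = 0)
    (hb : 4 * b ^ 3 - g2 * b - g3 = 0) (hc : 4 * c ^ 3 - g2 * c - g3 = 0)
    (hab : a ≠ b) (hac : a ≠ c) (hbc : b ≠ c) : c = -a - b := by
  have h := cubic_factor ha hb hab c
  rw [hc] at h
  have h' : (c - a) * (c - b) * (c - (-a - b)) = 0 := by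
    have : (4 : ℂ) * ((c - a) * (c - b) * (c - (-a - b))) = 0 := h.symm
    simpa using this
  rcases mul_eq_zero.mp h' with h1 | h1
  · rcases mul_eq_zero.mp h1 with h2 | h2
    · exact absurd (sub_eq_zero.mp h2).symm hac
    · exact absurd (sub_eq_zero.mp h2).symm hbc
  · exact sub_eq_zero.mp h1

/-- The translation formula by a half period. -/
theorem translation (hadd : Stmt_add) {L : PeriodPair} {h : ℂ} (H : IsHalf L h)
    {Ei El : ℂ} (hroots : ∀ x : ℂ, 4 * x ^ 3 - L.g₂ * x - L.g₃ =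
      4 * ((x - Ei) * (x - ℘[L] h) * (x - El)))
    (hsum : El = -Ei - ℘[L] h)
    {u : ℂ} (hu : u ∉ L.lattice) (huh : u + h ∉ L.lattice) (hne : ℘[L] u ≠ ℘[L] h) :
    (℘[L] (u + h) - Ei) * (℘[L] u - ℘[L] h) = (℘[L] h - Ei) * (℘[L] u - El) := by
  have h1 := hadd L u h hu H.notMem huh
  rw [H.deriv_eq_zero, sub_zero, L.derivWeierstrassP_sq u hu, hroots (℘[L] u)] at h1
  have hne' : ℘[L] u - ℘[L] h ≠ 0 := sub_ne_zero.mpr hne
  have h2 : (℘[L] u - ℘[L] h) * ((℘[L] (u + h) + ℘[L] u + ℘[L] h) * (℘[L] u - ℘[L] h)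
      - (℘[L] u - Ei) * (℘[L] u - El)) = 0 := by
    linear_combination h1
  have h3 := (mul_eq_zero.mp h2).resolve_left hne'
  subst hsum
  linear_combination h3

namespace Setup

variable {L L' : PeriodPair} {p : ℕ} {z₀ : ℂ} (S : Setup L L' p z₀)
include S

theorem odd_p : Odd p := S.hp.odd_of_ne_two S.hp2

theorem two_mul_nat_mul_notMem (k : ℕ) (hk0 : 0 < k) (hkp : k < p) :
    2 * ((k : ℂ) * z₀) ∉ L.lattice := by
  have := S.int_mul_notMem (2 * k : ℤ) (by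
    intro h
    have hp' : Prime (p : ℤ) := Nat.prime_iff_prime_int.mp S.hp
    rcases hp'.dvd_or_dvd h with h2 | h2
    · have h2' : p ∣ 2 := by exact_mod_cast h2
      have := Nat.le_of_dvd (by norm_num) h2'
      have := S.hp.two_le
      have := S.hp2
      omega
    · have h2' : p ∣ k := by exact_mod_cast h2
      exact absurd (Nat.le_of_dvd hk0 h2') (by omega))
  intro hmem
  apply this
  have e : ((2 * k : ℤ) : ℂ) * z₀ = 2 * ((k : ℂ) * z₀) := by push_cast; ring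
  rw [e]
  exact hmem

theorem half_notMem' {h : ℂ} (H : IsHalf L h) : h ∉ L'.lattice := by
  intro hmem
  obtain ⟨k, hk⟩ := (S.hL' h).mp hmem
  -- p h ∈ L, p odd, 2 h ∈ L ⇒ h ∈ L
  obtain ⟨m, hm⟩ := S.odd_p
  have h1 : (p : ℂ) * (h - (k : ℂ) * z₀) ∈ L.lattice := by
    have := L.lattice.smul_mem (p : ℤ) hk
    simpa [zsmul_eq_mul] using this
  have h2 : (p : ℂ) * h ∈ L.lattice := by
    have e : (p : ℂ) * h = (p : ℂ) * (h - (k : ℂ) * z₀) + (k : ℂ) * ((p : ℂ) * z₀) := by ring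
    rw [e]
    exact L.lattice.add_mem h1 (S.int_mul_p_mem k)
  have h3 : (m : ℂ) * (2 * h) ∈ L.lattice := by
    have := L.lattice.smul_mem (m : ℤ) H.two_mul
    simpa [zsmul_eq_mul] using this
  apply H.notMem
  have e : h = (p : ℂ) * h - (m : ℂ) * (2 * h) := by
    rw [hm]; push_cast; ring
  rw [e]
  exact L.lattice.sub_mem h2 h3

theorem isHalf' {h : ℂ} (H : IsHalf L h) : IsHalf L' h :=
  ⟨S.half_notMem' H, S.sub_lattice H.two_mul⟩

/-- `℘(k z₀) ≠ ℘(h)` for a half period `h` and `0 < k < p`. -/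
theorem wp_nat_mul_ne (hinj : Stmt_inj) {h : ℂ} (H : IsHalf L h) (k : ℕ) (hk0 : 0 < k)
    (hkp : k < p) : ℘[L] ((k : ℂ) * z₀) ≠ ℘[L] h := by
  intro heq
  have hk := S.nat_mul_notMem k hk0 hkp
  have h2k := S.two_mul_nat_mul_notMem k hk0 hkp
  rcases hinj L _ _ hk H.notMem heq with h1 | h1
  · apply h2k
    have e : 2 * ((k : ℂ) * z₀) = (2 : ℤ) • ((k : ℂ) * z₀ - h) + 2 * h := by
      rw [zsmul_eq_mul]; push_cast; ring
    rw [e]
    exact L.lattice.add_mem (L.lattice.smul_mem _ h1) H.two_mul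
  · apply h2k
    have e : 2 * ((k : ℂ) * z₀) = (2 : ℤ) • ((k : ℂ) * z₀ + h) - 2 * h := by
      rw [zsmul_eq_mul]; push_cast; ring
    rw [e]
    exact L.lattice.sub_mem (L.lattice.smul_mem _ h1) H.two_mul

theorem nat_mul_add_half_notMem {h : ℂ} (H : IsHalf L h) (k : ℕ) (hk0 : 0 < k)
    (hkp : k < p) : (k : ℂ) * z₀ + h ∉ L.lattice := by
  intro h1
  apply S.two_mul_nat_mul_notMem k hk0 hkp
  have e : 2 * ((k : ℂ) * z₀) = (2 : ℤ) • ((k : ℂ) * z₀ + h) - 2 * h := by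
    rw [zsmul_eq_mul]; push_cast; ring
  rw [e]
  exact L.lattice.sub_mem (L.lattice.smul_mem _ h1) H.two_mul

theorem XiAn_ne_zero (hinj : Stmt_inj) {h : ℂ} (H : IsHalf L h) :
    XiAn L p z₀ (℘[L] h) ≠ 0 := by
  unfold XiAn
  rw [Finset.prod_ne_zero_iff]
  intro k hk
  rw [Finset.mem_Ico] at hk
  exact sub_ne_zero.mpr (S.wp_nat_mul_ne hinj H k (by omega) hk.2)

/-- `F_{e_i}(z) = Ξ(e_i) (℘_Λ'(z) - ℘_Λ'(h_i))` off `Λ'`. -/
theorem Fprod_eq_Xi_mul {h : ℂ} (H : IsHalf L h) {z : ℂ} (hz : z ∉ L'.lattice) :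
    Fprod L p z₀ (℘[L] h) z = XiAn L p z₀ (℘[L] h) * (℘[L'] z - ℘[L'] h) := by
  obtain ⟨c, hc⟩ := S.exists_const (℘[L] h)
  have h1 := hc z hz
  have h2 := hc h (S.half_notMem' H)
  have h3 : Fprod L p z₀ (℘[L] h) h = 0 := by
    rw [Fprod_eq L p S.hp.pos]
    simp
  rw [h3] at h2
  linear_combination h1 - h2

/-- The value of `F_{e_i}` at another half period. -/
theorem Fprod_half (hadd : Stmt_add) (hinj : Stmt_inj) {hi hj : ℂ} (Hi : IsHalf L hi)
    (Hj : IsHalf L hj) (hd : hi - hj ∉ L.lattice) :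
    Fprod L p z₀ (℘[L] hi) hj * XiAn L p z₀ (℘[L] hj) =
      (℘[L] hj - ℘[L] hi) ^ p * XiAn L p z₀ (℘[L] (hi + hj)) := by
  have Hl : IsHalf L (hi + hj) := Hi.add Hj hd
  have hij : ℘[L] hi ≠ ℘[L] hj := Hi.ne_of_inj hinj Hj hd
  have hil : ℘[L] hi ≠ ℘[L] (hi + hj) := by
    refine Hi.ne_of_inj hinj Hl ?_
    have e : hi - (hi + hj) = (-1 : ℤ) • hj := by simp
    rw [e]
    intro hmem
    apply Hj.notMem
    have := L.lattice.smul_mem (-1 : ℤ) hmem
    simpa using this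
  have hjl : ℘[L] hj ≠ ℘[L] (hi + hj) := by
    refine Hj.ne_of_inj hinj Hl ?_
    have e : hj - (hi + hj) = (-1 : ℤ) • hi := by simp
    rw [e]
    intro hmem
    apply Hi.notMem
    have := L.lattice.smul_mem (-1 : ℤ) hmem
    simpa using this
  have hsum : ℘[L] (hi + hj) = -℘[L] hi - ℘[L] hj :=
    cubic_sum Hi.cubic Hj.cubic Hl.cubic hij hil hjl
  have hroots : ∀ x : ℂ, 4 * x ^ 3 - L.g₂ * x - L.g₃ =
      4 * ((x - ℘[L] hi) * (x - ℘[L] hj) * (x - ℘[L] (hi + hj))) := by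
    intro x
    rw [hsum]
    exact cubic_factor Hi.cubic Hj.cubic hij x
  -- each factor
  have hfac : ∀ k ∈ Finset.Ico 1 p,
      (℘[L] (hj + (k : ℂ) * z₀) - ℘[L] hi) * (℘[L] ((k : ℂ) * z₀) - ℘[L] hj) =
        (℘[L] hj - ℘[L] hi) * (℘[L] ((k : ℂ) * z₀) - ℘[L] (hi + hj)) := by
    intro k hk
    rw [Finset.mem_Ico] at hk
    have hk0 : 0 < k := by omega
    have := translation hadd Hj hroots hsum (S.nat_mul_notMem k hk0 hk.2)
      (S.nat_mul_add_half_notMem Hj k hk0 hk.2) (S.wp_nat_mul_ne hinj Hj k hk0 hk.2)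
    rw [add_comm hj]
    exact this
  rw [Fprod_eq L p S.hp.pos]
  unfold Hprod XiAn
  rw [mul_assoc, ← Finset.prod_mul_distrib, Finset.prod_congr rfl hfac,
    Finset.prod_mul_distrib, Finset.prod_const, Nat.card_Ico, ← mul_assoc]
  have hpow : (℘[L] hj - ℘[L] hi) ^ p =
      (℘[L] hj - ℘[L] hi) * (℘[L] hj - ℘[L] hi) ^ (p - 1) := by
    rw [← pow_succ', Nat.sub_add_cancel S.hp.pos]
  rw [hpow]

/-- The difference formula `e'_j - e'_i = (e_j - e_i)^p Ξ_l / (Ξ_i Ξ_j)`. -/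
theorem diff_formula (hadd : Stmt_add) (hinj : Stmt_inj) {hi hj : ℂ} (Hi : IsHalf L hi)
    (Hj : IsHalf L hj) (hd : hi - hj ∉ L.lattice) :
    ℘[L'] hj - ℘[L'] hi =
      cdiff L p z₀ (℘[L] hi) (℘[L] hj) (℘[L] (hi + hj)) := by
  have h1 := S.Fprod_half hadd hinj Hi Hj hd
  rw [S.Fprod_eq_Xi_mul Hi (S.half_notMem' Hj)] at h1
  have hXi := S.XiAn_ne_zero hinj Hi
  have hXj := S.XiAn_ne_zero hinj Hj
  unfold cdiff
  rw [eq_div_iff (mul_ne_zero hXi hXj)]
  linear_combination h1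

end Setup

end Fermat.Agent.S15.An.H67
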