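/-
S15 / BRIDGE / BR-AN / AN-LIOUV (helper67), part 4: the `j`-invariant of the quotient lattice.
`stmt_liouv_of : Stmt_add → Stmt_inj → Stmt_liouv`.
-/
import Fermat.Agent.S15.An.H67_LiouvHalf

set_option autoImplicit false

noncomputable section

open scoped PeriodPair Topology
open Filter

namespace Fermat.Agent.S15.An.H67

/-- The `j`-invariant of a lattice in terms of three distinct roots of its cubic. -/
theorem jL_eq_jOfDiff (L : PeriodPair) {a b c : ℂ}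
    (ha : 4 * a ^ 3 - L.g₂ * a - L.g₃ = 0) (hb : 4 * b ^ 3 - L.g₂ * b - L.g₃ = 0)
    (hc : 4 * c ^ 3 - L.g₂ * c - L.g₃ = 0) (hab : a ≠ b) (hac : a ≠ c) (hbc : b ≠ c) :
    jL L = jOfDiff (b - a) (c - a) (c - b) := by
  have hsum := cubic_sum ha hb hc hab hac hbc
  have h1 : (a - b) * (4 * (a ^ 2 + a * b + b ^ 2) - L.g₂) = 0 := by
    linear_combination ha - hb
  have h2 : 4 * (a ^ 2 + a * b + b ^ 2) - L.g₂ = 0 :=
    (mul_eq_zero.mp h1).resolve_left (sub_ne_zero.mpr hab)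
  have hg2 : L.g₂ = 4 * (a ^ 2 + a * b + b ^ 2) := by linear_combination -h2
  have hg3 : L.g₃ = 4 * a ^ 3 - L.g₂ * a := by linear_combination -ha
  have hd12 : b - a ≠ 0 := sub_ne_zero.mpr (Ne.symm hab)
  have hd13 : c - a ≠ 0 := sub_ne_zero.mpr (Ne.symm hac)
  have hd23 : c - b ≠ 0 := sub_ne_zero.mpr (Ne.symm hbc)
  have hD : ((b - a) * (c - a) * (c - b)) ^ 2 ≠ 0 :=
    pow_ne_zero 2 (mul_ne_zero (mul_ne_zero hd12 hd13) hd23)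
  have hdisc : L.g₂ ^ 3 - 27 * L.g₃ ^ 2 = 16 * ((b - a) * (c - a) * (c - b)) ^ 2 := by
    rw [hg3, hg2, hsum]; ring
  have hdisc_ne : L.g₂ ^ 3 - 27 * L.g₃ ^ 2 ≠ 0 := by
    rw [hdisc]; exact mul_ne_zero (by norm_num) hD
  unfold jL jOfDiff
  rw [div_eq_div_iff hdisc_ne hD, hdisc, hg2, hsum]
  ring

theorem cdiff_swap (L : PeriodPair) {p : ℕ} (hp : Odd p) (z₀ a b c : ℂ) :
    cdiff L p z₀ b a c = - cdiff L p z₀ a b c := by
  unfold cdiff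
  have : (a - b) ^ p = - (b - a) ^ p := by
    rw [← hp.neg_pow, neg_sub]
  rw [this, mul_comm (XiAn L p z₀ b) (XiAn L p z₀ a)]
  ring

theorem jOfDiff_neg1 (x y z : ℂ) : jOfDiff (-x) y z = jOfDiff x y z := by
  unfold jOfDiff; ring
theorem jOfDiff_neg2 (x y z : ℂ) : jOfDiff x (-y) z = jOfDiff x y z := by
  unfold jOfDiff; ring
theorem jOfDiff_neg3 (x y z : ℂ) : jOfDiff x y (-z) = jOfDiff x y z := by
  unfold jOfDiff; ring
theorem jOfDiff_comm12 (x y z : ℂ) : jOfDiff y x z = jOfDiff x y z := by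
  unfold jOfDiff; ring
theorem jOfDiff_comm23 (x y z : ℂ) : jOfDiff x z y = jOfDiff x y z := by
  unfold jOfDiff; ring

/-- The product-formula `j`-invariant. -/
def Jq (L : PeriodPair) (p : ℕ) (z₀ a b c : ℂ) : ℂ :=
  jOfDiff (cdiff L p z₀ a b c) (cdiff L p z₀ a c b) (cdiff L p z₀ b c a)

theorem Jq_213 (L : PeriodPair) {p : ℕ} (hp : Odd p) (z₀ a b c : ℂ) :
    Jq L p z₀ b a c = Jq L p z₀ a b c := by
  unfold Jq
  rw [cdiff_swap L hp z₀ a b c, jOfDiff_neg1, jOfDiff_comm23]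

theorem Jq_132 (L : PeriodPair) {p : ℕ} (hp : Odd p) (z₀ a b c : ℂ) :
    Jq L p z₀ a c b = Jq L p z₀ a b c := by
  unfold Jq
  rw [cdiff_swap L hp z₀ b c a, jOfDiff_neg3, jOfDiff_comm12]

theorem Jq_321 (L : PeriodPair) {p : ℕ} (hp : Odd p) (z₀ a b c : ℂ) :
    Jq L p z₀ c b a = Jq L p z₀ a b c := by
  rw [Jq_213 L hp z₀ b c a, Jq_132 L hp z₀ b a c, Jq_213 L hp z₀ a b c]

theorem Jq_231 (L : PeriodPair) {p : ℕ} (hp : Odd p) (z₀ a b c : ℂ) :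
    Jq L p z₀ b c a = Jq L p z₀ a b c := by
  rw [Jq_132 L hp z₀ b a c, Jq_213 L hp z₀ a b c]

theorem Jq_312 (L : PeriodPair) {p : ℕ} (hp : Odd p) (z₀ a b c : ℂ) :
    Jq L p z₀ c a b = Jq L p z₀ a b c := by
  rw [Jq_213 L hp z₀ a c b, Jq_132 L hp z₀ a b c]

/-- The three half periods. -/
theorem isHalf_ω₁ (L : PeriodPair) : IsHalf L (L.ω₁ / 2) :=
  ⟨L.ω₁_div_two_notMem_lattice, by
    have : 2 * (L.ω₁ / 2) = L.ω₁ := by ring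
    rw [this]; exact L.ω₁_mem_lattice⟩

theorem isHalf_ω₂ (L : PeriodPair) : IsHalf L (L.ω₂ / 2) :=
  ⟨L.ω₂_div_two_notMem_lattice, by
    have : 2 * (L.ω₂ / 2) = L.ω₂ := by ring
    rw [this]; exact L.ω₂_mem_lattice⟩

theorem half_sub_notMem (L : PeriodPair) : L.ω₁ / 2 - L.ω₂ / 2 ∉ L.lattice := by
  have h := (L.mul_ω₁_add_mul_ω₂_mem_lattice (α := 1 / 2) (β := -(1 / 2))).not.mpr (by norm_num)
  have e : ((1 / 2 : ℚ) : ℂ) * L.ω₁ + ((-(1 / 2) : ℚ) : ℂ) * L.ω₂ = L.ω₁ / 2 - L.ω₂ / 2 := by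
    push_cast; ring
  rw [e] at h
  exact h

/-- The main formula with the roots numbered by the half periods. -/
theorem Setup.jL_eq_Jq {L L' : PeriodPair} {p : ℕ} {z₀ : ℂ} (S : Setup L L' p z₀)
    (hadd : Stmt_add) (hinj : Stmt_inj) :
    jL L' = Jq L p z₀ (℘[L] (L.ω₁ / 2)) (℘[L] (L.ω₂ / 2)) (℘[L] (L.ω₁ / 2 + L.ω₂ / 2)) := by
  have H1 := isHalf_ω₁ L
  have H2 := isHalf_ω₂ L
  have hd12 := half_sub_notMem L
  have H3 : IsHalf L (L.ω₁ / 2 + L.ω₂ / 2) := H1.add H2 hd12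
  have hd13 : L.ω₁ / 2 - (L.ω₁ / 2 + L.ω₂ / 2) ∉ L.lattice := by
    have e : L.ω₁ / 2 - (L.ω₁ / 2 + L.ω₂ / 2) = (-1 : ℤ) • (L.ω₂ / 2) := by simp
    rw [e]
    intro hmem
    apply H2.notMem
    have := L.lattice.smul_mem (-1 : ℤ) hmem
    simpa using this
  have hd23 : L.ω₂ / 2 - (L.ω₁ / 2 + L.ω₂ / 2) ∉ L.lattice := by
    have e : L.ω₂ / 2 - (L.ω₁ / 2 + L.ω₂ / 2) = (-1 : ℤ) • (L.ω₁ / 2) := by simp
    rw [e]
    intro hmem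
    apply H1.notMem
    have := L.lattice.smul_mem (-1 : ℤ) hmem
    simpa using this
  -- the difference formulas
  have f12 := S.diff_formula hadd hinj H1 H2 hd12
  have f13 := S.diff_formula hadd hinj H1 H3 hd13
  have f23 := S.diff_formula hadd hinj H2 H3 hd23
  have e13 : ℘[L] (L.ω₁ / 2 + (L.ω₁ / 2 + L.ω₂ / 2)) = ℘[L] (L.ω₂ / 2) := by
    have : L.ω₁ / 2 + (L.ω₁ / 2 + L.ω₂ / 2) = L.ω₂ / 2 + L.ω₁ := by ring
    rw [this, Setup.wp_add_of_mem L _ L.ω₁_mem_lattice]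
  have e23 : ℘[L] (L.ω₂ / 2 + (L.ω₁ / 2 + L.ω₂ / 2)) = ℘[L] (L.ω₁ / 2) := by
    have : L.ω₂ / 2 + (L.ω₁ / 2 + L.ω₂ / 2) = L.ω₁ / 2 + L.ω₂ := by ring
    rw [this, Setup.wp_add_of_mem L _ L.ω₂_mem_lattice]
  rw [e13] at f13
  rw [e23] at f23
  -- the lattice `L'`
  have H1' := S.isHalf' H1
  have H2' := S.isHalf' H2
  have H3' := S.isHalf' H3
  have hd12' : L.ω₁ / 2 - L.ω₂ / 2 ∉ L'.lattice := by
    have Hd : IsHalf L (L.ω₁ / 2 - L.ω₂ / 2) := by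
      refine ⟨hd12, ?_⟩
      have : 2 * (L.ω₁ / 2 - L.ω₂ / 2) = L.ω₁ - L.ω₂ := by ring
      rw [this]
      exact L.lattice.sub_mem L.ω₁_mem_lattice L.ω₂_mem_lattice
    exact S.half_notMem' Hd
  have hd13' : L.ω₁ / 2 - (L.ω₁ / 2 + L.ω₂ / 2) ∉ L'.lattice := by
    have e : L.ω₁ / 2 - (L.ω₁ / 2 + L.ω₂ / 2) = (-1 : ℤ) • (L.ω₂ / 2) := by simp
    rw [e]
    intro hmem
    apply H2'.notMem
    have := L'.lattice.smul_mem (-1 : ℤ) hmem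
    simpa using this
  have hd23' : L.ω₂ / 2 - (L.ω₁ / 2 + L.ω₂ / 2) ∉ L'.lattice := by
    have e : L.ω₂ / 2 - (L.ω₁ / 2 + L.ω₂ / 2) = (-1 : ℤ) • (L.ω₁ / 2) := by simp
    rw [e]
    intro hmem
    apply H1'.notMem
    have := L'.lattice.smul_mem (-1 : ℤ) hmem
    simpa using this
  have := jL_eq_jOfDiff L' H1'.cubic H2'.cubic H3'.cubic (H1'.ne_of_inj hinj H2' hd12')
    (H1'.ne_of_inj hinj H3' hd13') (H2'.ne_of_inj hinj H3' hd23')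
  rw [this, f12, f13, f23]
  unfold Jq
  rfl

/-- Renumbering of the roots. -/
theorem Jq_perm (L : PeriodPair) {p : ℕ} (hp : Odd p) (z₀ : ℂ) {E1 E2 E3 e₁ e₂ e₃ : ℂ}
    (h12 : E1 ≠ E2) (h13 : E1 ≠ E3) (h23 : E2 ≠ E3)
    (m1 : E1 = e₁ ∨ E1 = e₂ ∨ E1 = e₃) (m2 : E2 = e₁ ∨ E2 = e₂ ∨ E2 = e₃)
    (m3 : E3 = e₁ ∨ E3 = e₂ ∨ E3 = e₃) :
    Jq L p z₀ e₁ e₂ e₃ = Jq L p z₀ E1 E2 E3 := by
  rcases m1 with h1 | h1 | h1 <;> rcases m2 with h2 | h2 | h2 <;>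
    rcases m3 with h3 | h3 | h3
  all_goals first
    | exact absurd (h1.trans h2.symm) h12
    | exact absurd (h1.trans h3.symm) h13
    | exact absurd (h2.trans h3.symm) h23
    | (rw [← h1, ← h2, ← h3]; done)
    | (rw [← h1, ← h2, ← h3]; exact Jq_213 L hp _ _ _ _)
    | (rw [← h1, ← h2, ← h3]; exact Jq_132 L hp _ _ _ _)
    | (rw [← h1, ← h2, ← h3]; exact Jq_321 L hp _ _ _ _)
    | (rw [← h1, ← h2, ← h3]; exact Jq_231 L hp _ _ _ _)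
    | (rw [← h1, ← h2, ← h3]; exact Jq_312 L hp _ _ _ _)

theorem stmt_liouv_of (hadd : Stmt_add) (hinj : Stmt_inj) : Stmt_liouv := by
  intro L L' p z₀ hp hp2 hz₀ hpz₀ hL' e₁ e₂ e₃ hroots
  have S : Setup L L' p z₀ := ⟨hp, hp2, hz₀, hpz₀, hL'⟩
  have hodd := S.odd_p
  have H1 := isHalf_ω₁ L
  have H2 := isHalf_ω₂ L
  have hd12 := half_sub_notMem L
  have H3 : IsHalf L (L.ω₁ / 2 + L.ω₂ / 2) := H1.add H2 hd12
  have hd13 : L.ω₁ / 2 - (L.ω₁ / 2 + L.ω₂ / 2) ∉ L.lattice := by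
    have e : L.ω₁ / 2 - (L.ω₁ / 2 + L.ω₂ / 2) = (-1 : ℤ) • (L.ω₂ / 2) := by simp
    rw [e]
    intro hmem
    apply H2.notMem
    have := L.lattice.smul_mem (-1 : ℤ) hmem
    simpa using this
  have hd23 : L.ω₂ / 2 - (L.ω₁ / 2 + L.ω₂ / 2) ∉ L.lattice := by
    have e : L.ω₂ / 2 - (L.ω₁ / 2 + L.ω₂ / 2) = (-1 : ℤ) • (L.ω₁ / 2) := by simp
    rw [e]
    intro hmem
    apply H1.notMem
    have := L.lattice.smul_mem (-1 : ℤ) hmem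
    simpa using this
  have hE12 : ℘[L] (L.ω₁ / 2) ≠ ℘[L] (L.ω₂ / 2) := H1.ne_of_inj hinj H2 hd12
  have hE13 : ℘[L] (L.ω₁ / 2) ≠ ℘[L] (L.ω₁ / 2 + L.ω₂ / 2) := H1.ne_of_inj hinj H3 hd13
  have hE23 : ℘[L] (L.ω₂ / 2) ≠ ℘[L] (L.ω₁ / 2 + L.ω₂ / 2) := H2.ne_of_inj hinj H3 hd23
  have hmem : ∀ x : ℂ, 4 * x ^ 3 - L.g₂ * x - L.g₃ = 0 → x = e₁ ∨ x = e₂ ∨ x = e₃ := by
    intro x hx
    have h := hroots x
    rw [hx] at h
    have h' : (x - e₁) * (x - e₂) * (x - e₃) = 0 := by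
      have : (4 : ℂ) * ((x - e₁) * (x - e₂) * (x - e₃)) = 0 := h.symm
      simpa using this
    rcases mul_eq_zero.mp h' with h1 | h1
    · rcases mul_eq_zero.mp h1 with h2 | h2
      · exact Or.inl (sub_eq_zero.mp h2)
      · exact Or.inr (Or.inl (sub_eq_zero.mp h2))
    · exact Or.inr (Or.inr (sub_eq_zero.mp h1))
  have hperm := Jq_perm L hodd z₀ hE12 hE13 hE23 (hmem _ H1.cubic) (hmem _ H2.cubic)
    (hmem _ H3.cubic)
  have hmain := S.jL_eq_Jq hadd hinj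
  rw [hmain, ← hperm]
  unfold Jq
  rfl

end Fermat.Agent.S15.An.H67
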