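/-
S15 / BRIDGE / BR-AN / AN-LIOUV (helper67): `stmt_liouv : Stmt_liouv`, unconditional
(with helper45's addition theorem and injectivity).
-/
import Fermat.Agent.S15.An.H67_LiouvFinal
import Fermat.Agent.S15.An.H45_AddInjSurj

set_option autoImplicit false

namespace Fermat.Agent.S15.An.H67

/-- AN-LIOUV: the `j`-invariant of `Λ' = Λ + ℤ z₀` is given by the product formula. -/
theorem stmt_liouv : Stmt_liouv :=
  stmt_liouv_of Fermat.Agent.S15.An.H45.stmt_add Fermat.Agent.S15.An.H45.stmt_inj

end Fermat.Agent.S15.An.H67
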