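/-
S15 / BRIDGE / BR-AN, leaf AN-LADDER (helper87).

A point `Q` of exact order `p` (odd prime) of `E(Q̄)` is uniformised by some `z₀ ∈ ℂ`:
`℘(k z₀) = ι x(k Q) + b₂/12` for `0 < k < p`, `p z₀ ∈ Λ`, where `g₂(Λ) = c₄/12`, `g₃(Λ) = c₆/216`.

Route: x-only.  The algebraic relation (helper11, `Lib/Torsion`)
`(x(A+B) - t)(x(A-B) - t)(x(A) - x(B))² = symF(x(A), x(B), t)` and its analytic twin, which follows
from the addition theorem (AN-ADD) applied to `(u, v)` and `(u, -v)`; the first step uses the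
duplication formula (AN-DUP).

Main result: `Fermat.Agent.S15.An.H87.stmt_ladder_of :
  Stmt_add → Stmt_dup → Stmt_inj → Stmt_surj → Stmt_ladder`.
-/
import Fermat.Agent.S15.An.Defs
import Fermat.Agent.S15.H11_BRDefs
import Fermat.Agent.Lib.Torsion.H11_Order

set_option autoImplicit false

noncomputable section

open scoped PeriodPair

namespace Fermat.Agent.S15.An.H87

open WeierstrassCurve Fermat.Agent.Lib.Torsion.H11

/-! ### The analytic x-only relation -/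

/-- The symmetric biquadratic form of the short model `y² = 4 x³ - g₂ x - g₃`. -/
def symS (g2 g3 u v t : ℂ) : ℂ :=
  (u ^ 2 * v ^ 2 + u ^ 2 * t ^ 2 + v ^ 2 * t ^ 2) - 2 * u * v * t * (u + v + t)
    + g2 / 2 * (u * v + u * t + v * t) + g3 * (u + v + t) + g2 ^ 2 / 16

/-- The analytic x-only addition relation. -/
theorem an_rel (hadd : Stmt_add) (L : PeriodPair) {u v : ℂ} (hu : u ∉ L.lattice)
    (hv : v ∉ L.lattice) (huv : u + v ∉ L.lattice) (huv' : u - v ∉ L.lattice)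
    (hne : ℘[L] u ≠ ℘[L] v) (t : ℂ) :
    (℘[L] (u + v) - t) * (℘[L] (u - v) - t) * (℘[L] u - ℘[L] v) ^ 2 =
      symS L.g₂ L.g₃ (℘[L] u) (℘[L] v) t := by
  have hD : ℘[L] u - ℘[L] v ≠ 0 := sub_ne_zero.2 hne
  have hnv : -v ∉ L.lattice := fun h => hv (by simpa using L.lattice.neg_mem h)
  have a := hadd L u v hu hv huv
  have b := hadd L u (-v) hu hnv (by rwa [← sub_eq_add_neg])
  rw [← sub_eq_add_neg, L.weierstrassP_neg, L.derivWeierstrassP_neg] at b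
  have E1 := L.derivWeierstrassP_sq u hu
  have E2 := L.derivWeierstrassP_sq v hv
  apply mul_right_cancel₀ (pow_ne_zero 2 hD)
  unfold symS
  linear_combination
    (℘[L] (u - v) - t) * (℘[L] u - ℘[L] v) ^ 2 * a
    + (1 / 4 * (℘'[L] u - ℘'[L] v) ^ 2
        - (℘[L] u + ℘[L] v + t) * (℘[L] u - ℘[L] v) ^ 2) * b
    + (1 / 16 * (℘'[L] u ^ 2 - ℘'[L] v ^ 2 + (4 * ℘[L] u ^ 3 - L.g₂ * ℘[L] u - L.g₃)
          - (4 * ℘[L] v ^ 3 - L.g₂ * ℘[L] v - L.g₃))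
        - (℘[L] u + ℘[L] v + t) * (℘[L] u - ℘[L] v) ^ 2 / 2) * E1
    + (-(1 / 16 * (℘'[L] u ^ 2 - ℘'[L] v ^ 2 + (4 * ℘[L] u ^ 3 - L.g₂ * ℘[L] u - L.g₃)
          - (4 * ℘[L] v ^ 3 - L.g₂ * ℘[L] v - L.g₃)))
        - (℘[L] u + ℘[L] v + t) * (℘[L] u - ℘[L] v) ^ 2 / 2) * E2

/-! ### The algebraic x-only relations, in `ℂ` -/

section alg

open Fermat.Agent.S15.H11 Fermat.Agent.S24

variable (W : WeierstrassCurve ℤ)

/-- The shifted `x`-coordinate `ι x(P) + b₂/12` (the `℘`-value). -/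
def Xs (P : (EBar W).Point) : ℂ := iotaC (xc (EBar W) P) + (W.b₂ : ℂ) / 12

lemma iotaC_injective : Function.Injective iotaC := iotaC.injective

lemma Xs_eq_iff {P P' : (EBar W).Point} : Xs W P = Xs W P' ↔ xc (EBar W) P = xc (EBar W) P' := by
  unfold Xs
  constructor
  · intro h
    exact iotaC_injective (add_right_cancel h)
  · intro h
    rw [h]

lemma EBar_b₂ : (EBar W).b₂ = ((W.b₂ : ℤ) : Qb) := EB_b₂ W
lemma EBar_b₄ : (EBar W).b₄ = ((W.b₄ : ℤ) : Qb) := EB_b₄ W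
lemma EBar_b₆ : (EBar W).b₆ = ((W.b₆ : ℤ) : Qb) := EB_b₆ W
lemma EBar_b₈ : (EBar W).b₈ = ((W.b₈ : ℤ) : Qb) := EB_b₈ W

/-- The form `symF` of `W` is the form `symS` of the short model after the shift. -/
lemma symF_shift (x₁ x₂ t : Qb) :
    iotaC (symF (EBar W) x₁ x₂ t) =
      symS ((W.c₄ : ℂ) / 12) ((W.c₆ : ℂ) / 216) (iotaC x₁ + (W.b₂ : ℂ) / 12)
        (iotaC x₂ + (W.b₂ : ℂ) / 12) (iotaC t + (W.b₂ : ℂ) / 12) := by
  have hrel : (4 : ℂ) * (W.b₈ : ℂ) = (W.b₂ : ℂ) * (W.b₆ : ℂ) - (W.b₄ : ℂ) ^ 2 := by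
    exact_mod_cast congrArg (Int.cast : ℤ → ℂ) W.b_relation
  have hc4 : (W.c₄ : ℂ) = (W.b₂ : ℂ) ^ 2 - 24 * (W.b₄ : ℂ) := by
    simp only [WeierstrassCurve.c₄]; push_cast; ring
  have hc6 : (W.c₆ : ℂ) = -(W.b₂ : ℂ) ^ 3 + 36 * (W.b₂ : ℂ) * (W.b₄ : ℂ) - 216 * (W.b₆ : ℂ) := by
    simp only [WeierstrassCurve.c₆]; push_cast; ring
  unfold symF symS
  rw [EBar_b₂, EBar_b₄, EBar_b₆, EBar_b₈, hc4, hc6]
  simp only [map_sub, map_add, map_mul, map_pow, map_ofNat, map_intCast]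
  linear_combination (-1 / 4 : ℂ) * hrel

/-- `ψ₂²` after the shift. -/
lemma psi2sq_shift (x : Qb) :
    iotaC (psi2sq (EBar W) x) =
      4 * (iotaC x + (W.b₂ : ℂ) / 12) ^ 3 - (W.c₄ : ℂ) / 12 * (iotaC x + (W.b₂ : ℂ) / 12)
        - (W.c₆ : ℂ) / 216 := by
  have hc4 : (W.c₄ : ℂ) = (W.b₂ : ℂ) ^ 2 - 24 * (W.b₄ : ℂ) := by
    simp only [WeierstrassCurve.c₄]; push_cast; ring
  have hc6 : (W.c₆ : ℂ) = -(W.b₂ : ℂ) ^ 3 + 36 * (W.b₂ : ℂ) * (W.b₄ : ℂ) - 216 * (W.b₆ : ℂ) := by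
    simp only [WeierstrassCurve.c₆]; push_cast; ring
  unfold psi2sq
  rw [EBar_b₂, EBar_b₄, EBar_b₆, hc4, hc6]
  simp only [map_add, map_mul, map_pow, map_ofNat, map_intCast]
  ring

/-- `φ₂` after the shift. -/
lemma phi2_shift (x : Qb) :
    iotaC (phi2 (EBar W) x) =
      1 / 4 * (6 * (iotaC x + (W.b₂ : ℂ) / 12) ^ 2 - (W.c₄ : ℂ) / 12 / 2) ^ 2
        - (2 * (iotaC x + (W.b₂ : ℂ) / 12) + (W.b₂ : ℂ) / 12) * iotaC (psi2sq (EBar W) x) := by
  have hrel : (4 : ℂ) * (W.b₈ : ℂ) = (W.b₂ : ℂ) * (W.b₆ : ℂ) - (W.b₄ : ℂ) ^ 2 := by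
    exact_mod_cast congrArg (Int.cast : ℤ → ℂ) W.b_relation
  have hc4 : (W.c₄ : ℂ) = (W.b₂ : ℂ) ^ 2 - 24 * (W.b₄ : ℂ) := by
    simp only [WeierstrassCurve.c₄]; push_cast; ring
  unfold phi2 psi2sq
  rw [EBar_b₂, EBar_b₄, EBar_b₆, EBar_b₈, hc4]
  simp only [map_sub, map_add, map_mul, map_pow, map_ofNat, map_intCast]
  linear_combination (-1 / 4 : ℂ) * hrel

/-- The algebraic addition relation in `ℂ`. -/
theorem alg_rel_C {A B : (EBar W).Point} (hA : A ≠ 0) (hB : B ≠ 0)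
    (hx : xc (EBar W) A ≠ xc (EBar W) B) :
    symS ((W.c₄ : ℂ) / 12) ((W.c₆ : ℂ) / 216) (Xs W A) (Xs W B) (Xs W (A + B)) = 0 := by
  have h := xc_add_rel (EBar W) hA hB hx (xc (EBar W) (A + B))
  rw [sub_self, zero_mul, zero_mul] at h
  unfold Xs
  rw [← symF_shift, ← h, _root_.map_zero]

/-- The algebraic duplication relation in `ℂ`. -/
theorem alg_dup_C {x y : Qb} (h : (EBar W).Nonsingular x y) (hy : y ≠ (EBar W).negY x y) :
    (Xs W ((2 : ℕ) • Affine.Point.some x y h) + 2 * Xs W (Affine.Point.some x y h)) *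
        iotaC (psi2sq (EBar W) x) =
      1 / 4 * (6 * Xs W (Affine.Point.some x y h) ^ 2 - (W.c₄ : ℂ) / 12 / 2) ^ 2 := by
  have h2 := congrArg iotaC (xc_two_smul (EBar W) h hy)
  rw [map_mul, phi2_shift] at h2
  unfold Xs
  rw [xc_some]
  linear_combination h2

end alg

/-! ### Periodicity -/

section periodic

variable (L : PeriodPair)

lemma wp_eq_of_add_mem {a b : ℂ} (h : a + b ∈ L.lattice) : ℘[L] a = ℘[L] b := by
  have e : a = -b + ((⟨a + b, h⟩ : L.lattice) : ℂ) := by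
    show a = -b + (a + b)
    ring
  calc ℘[L] a = ℘[L] (-b + ((⟨a + b, h⟩ : L.lattice) : ℂ)) := congrArg _ e
    _ = ℘[L] (-b) := L.weierstrassP_add_coe _ _
    _ = ℘[L] b := L.weierstrassP_neg b

lemma wp'_eq_neg_of_add_mem {a b : ℂ} (h : a + b ∈ L.lattice) : ℘'[L] a = -℘'[L] b := by
  have e : a = -b + ((⟨a + b, h⟩ : L.lattice) : ℂ) := by
    show a = -b + (a + b)
    ring
  calc ℘'[L] a = ℘'[L] (-b + ((⟨a + b, h⟩ : L.lattice) : ℂ)) := congrArg _ e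
    _ = ℘'[L] (-b) := L.derivWeierstrassP_add_coe _ _
    _ = -℘'[L] b := L.derivWeierstrassP_neg b

end periodic

/-! ### The ladder -/

section ladder

open Fermat.Agent.S15.H11 Fermat.Agent.S24

variable {W : WeierstrassCurve ℤ} {p : ℕ} {Q : (EBar W).Point}

lemma nsmul_ne_zero_of_lt (hord : addOrderOf Q = p) {k : ℕ} (hk0 : 0 < k) (hkp : k < p) :
    k • Q ≠ 0 :=
  nsmul_ne_zero_of_lt_addOrderOf hk0.ne' (hord ▸ hkp)

/-- Multiples of `Q` with the same `x`-coordinate. -/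
lemma eq_or_add_eq_of_xc_eq (hord : addOrderOf Q = p) {j k : ℕ} (hj0 : 0 < j)
    (hjp : j < p) (hk0 : 0 < k) (hkp : k < p)
    (h : xc (EBar W) (j • Q) = xc (EBar W) (k • Q)) : j = k ∨ j + k = p := by
  rcases eq_or_eq_neg_of_xc_eq (EBar W) (nsmul_ne_zero_of_lt hord hj0 hjp)
    (nsmul_ne_zero_of_lt hord hk0 hkp) h with h1 | h1
  · left
    have h2 := nsmul_eq_nsmul_iff_modEq.1 h1
    rw [hord] at h2
    exact h2.eq_of_lt_of_lt hjp hkp
  · right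
    have h2 : (j + k) • Q = 0 := by
      rw [add_nsmul, h1, neg_add_cancel]
    have h3 : p ∣ j + k := by
      rw [← hord]
      exact addOrderOf_dvd_iff_nsmul_eq_zero.2 h2
    obtain ⟨c, hc⟩ := h3
    have hc1 : c = 1 := by
      rcases Nat.lt_or_ge c 1 with h0 | h1'
      · have : c = 0 := by omega
        subst this
        omega
      · rcases Nat.lt_or_ge c 2 with h0 | h2'
        · omega
        · exfalso
          have : p * 2 ≤ p * c := Nat.mul_le_mul_left p h2'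
          omega
    rw [hc, hc1, mul_one]

/-- The ladder statement at level `k`. -/
def LadderAt (W : WeierstrassCurve ℤ) (Q : (EBar W).Point) (L : PeriodPair) (z₀ : ℂ)
    (k : ℕ) : Prop :=
  (k : ℂ) * z₀ ∉ L.lattice ∧ ℘[L] ((k : ℂ) * z₀) = Xs W (k • Q)

/-- The induction step of the ladder. -/
theorem ladder_step (hadd : Stmt_add) (hp : p.Prime) (hp2 : p ≠ 2)
    (hord : addOrderOf Q = p) (L : PeriodPair) (hg2 : L.g₂ = (W.c₄ : ℂ) / 12)
    (hg3 : L.g₃ = (W.c₆ : ℂ) / 216) {z₀ : ℂ} {n : ℕ} (hn : n + 3 < p)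
    (h1 : LadderAt W Q L z₀ 1) (ha : LadderAt W Q L z₀ (n + 1))
    (hb : LadderAt W Q L z₀ (n + 2)) : LadderAt W Q L z₀ (n + 3) := by
  obtain ⟨hz1, hw1⟩ := h1
  obtain ⟨hza, hwa⟩ := ha
  obtain ⟨hzb, hwb⟩ := hb
  rw [Nat.cast_one, one_mul] at hz1 hw1
  rw [one_nsmul] at hw1
  have hu : (((n + 3 : ℕ) : ℂ)) * z₀ = ((n + 2 : ℕ) : ℂ) * z₀ + z₀ := by push_cast; ring
  have hd : (((n + 1 : ℕ) : ℂ)) * z₀ = ((n + 2 : ℕ) : ℂ) * z₀ - z₀ := by push_cast; ring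
  have hQb : (n + 2) • Q ≠ 0 := nsmul_ne_zero_of_lt hord (by omega) (by omega)
  have hQ1 : Q ≠ 0 := by
    have := nsmul_ne_zero_of_lt hord (k := 1) (by omega) (by omega)
    rwa [one_nsmul] at this
  -- `x((n+2)Q) ≠ x(Q)`
  have hxne : xc (EBar W) ((n + 2) • Q) ≠ xc (EBar W) Q := by
    intro h
    have h' : xc (EBar W) ((n + 2) • Q) = xc (EBar W) (1 • Q) := by rw [one_nsmul]; exact h
    rcases eq_or_add_eq_of_xc_eq hord (by omega) (by omega) (by omega) (by omega) h' with h2 | h2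
    · omega
    · omega
  have hXne : Xs W ((n + 2) • Q) ≠ Xs W Q := fun h => hxne ((Xs_eq_iff W).1 h)
  have hwne : ℘[L] (((n + 2 : ℕ) : ℂ) * z₀) ≠ ℘[L] z₀ := by
    rw [hwb, hw1]; exact hXne
  -- `(n+3) z₀ ∉ Λ`
  have hzc : ((n + 3 : ℕ) : ℂ) * z₀ ∉ L.lattice := by
    intro hmem
    rw [hu] at hmem
    exact hwne (wp_eq_of_add_mem L hmem)
  refine ⟨hzc, ?_⟩
  have hrel := an_rel hadd L hzb hz1 (by rw [← hu]; exact hzc) (by rw [← hd]; exact hza) hwne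
    (Xs W ((n + 3) • Q))
  have halg := alg_rel_C W hQb hQ1 hxne
  have hsum : (n + 2) • Q + Q = (n + 3) • Q := (succ_nsmul Q (n + 2)).symm
  rw [hsum] at halg
  rw [← hu, ← hd, hwa, hwb, hw1, hg2, hg3, halg] at hrel
  rcases mul_eq_zero.1 hrel with h3 | h3
  · rcases mul_eq_zero.1 h3 with h4 | h4
    · exact sub_eq_zero.1 h4
    · exfalso
      have h5 : xc (EBar W) ((n + 1) • Q) = xc (EBar W) ((n + 3) • Q) :=
        (Xs_eq_iff W).1 (sub_eq_zero.1 h4)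
      rcases eq_or_add_eq_of_xc_eq hord (by omega) (by omega) (by omega) hn h5 with h6 | h6
      · omega
      · -- `2 (n + 2) = p`
        have h7 : 2 ∣ p := ⟨n + 2, by omega⟩
        rcases hp.eq_one_or_self_of_dvd 2 h7 with h8 | h8
        · omega
        · exact hp2 h8.symm
  · exact absurd (pow_eq_zero_iff two_ne_zero |>.1 h3) (sub_ne_zero.2 hXne)

/-- The second step of the ladder (duplication). -/
theorem ladder_two (hdup : Stmt_dup) (hord : addOrderOf Q = p) (hp3 : 2 < p)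
    (L : PeriodPair) (hg2 : L.g₂ = (W.c₄ : ℂ) / 12) (hg3 : L.g₃ = (W.c₆ : ℂ) / 216) {z₀ : ℂ}
    (h1 : LadderAt W Q L z₀ 1) : LadderAt W Q L z₀ 2 := by
  obtain ⟨hz1, hw1⟩ := h1
  rw [Nat.cast_one, one_mul] at hz1 hw1
  rw [one_nsmul] at hw1
  have hQ2 : (2 : ℕ) • Q ≠ 0 := nsmul_ne_zero_of_lt hord (by omega) hp3
  have hQ1 : Q ≠ 0 := by
    have := nsmul_ne_zero_of_lt hord (k := 1) (by omega) (by omega)
    rwa [one_nsmul] at this
  rcases Q with _ | ⟨x, y, h⟩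
  · exact absurd rfl hQ1
  have hy : y ≠ (EBar W).negY x y := by
    intro hy
    exact hQ2 ((two_smul_eq_zero_iff (EBar W) h).2 hy)
  have hpsi : psi2sq (EBar W) x ≠ 0 := by
    rw [← psi2v_sq (EBar W) h]
    refine pow_ne_zero 2 (fun h0 => hQ2 ((psi2v_eq_zero_iff (EBar W) h).1 h0))
  have hpsiC : iotaC (psi2sq (EBar W) x) ≠ 0 := by
    intro h0
    exact hpsi (iotaC_injective (h0.trans (_root_.map_zero iotaC).symm))
  have hE := L.derivWeierstrassP_sq z₀ hz1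
  have hXx : Xs W (Affine.Point.some x y h) = iotaC x + (W.b₂ : ℂ) / 12 := rfl
  have hE' : ℘'[L] z₀ ^ 2 = iotaC (psi2sq (EBar W) x) := by
    rw [hE, hw1, hg2, hg3, psi2sq_shift, hXx]
  have h2z : (2 : ℂ) * z₀ ∉ L.lattice := by
    intro hmem
    have h0 : ℘'[L] z₀ = -℘'[L] z₀ :=
      wp'_eq_neg_of_add_mem L (by rw [← two_mul]; exact hmem)
    have h00 : ℘'[L] z₀ = 0 := by
      have : (2 : ℂ) * ℘'[L] z₀ = 0 := by linear_combination h0
      rcases mul_eq_zero.1 this with h' | h'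
      · exact absurd h' two_ne_zero
      · exact h'
    rw [h00] at hE'
    exact hpsiC (by rw [← hE']; ring)
  have hD := hdup L z₀ hz1 h2z
  have hA := alg_dup_C W h hy
  refine ⟨by rw [Nat.cast_ofNat]; exact h2z, ?_⟩
  rw [Nat.cast_ofNat]
  rw [hw1, hE', hg2] at hD
  have hkey : (℘[L] (2 * z₀) - Xs W ((2 : ℕ) • Affine.Point.some x y h)) *
      iotaC (psi2sq (EBar W) x) = 0 := by
    linear_combination hD - hA
  rcases mul_eq_zero.1 hkey with h' | h'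
  · exact sub_eq_zero.1 h'
  · exact absurd h' hpsiC

/-- (AN-LADDER) from the addition theorem, the duplication formula, injectivity and
surjectivity of `℘`. -/
theorem stmt_ladder_of (hadd : Stmt_add) (hdup : Stmt_dup) (hinj : Stmt_inj)
    (hsurj : Stmt_surj) : Stmt_ladder := by
  intro p hp hp2 W _ Q hord L hg2 hg3
  have hp3 : 2 < p := lt_of_le_of_ne hp.two_le (Ne.symm hp2)
  obtain ⟨z₀, hz₀, hw₀⟩ := hsurj L (Xs W Q)
  have h1 : LadderAt W Q L z₀ 1 := by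
    refine ⟨by rw [Nat.cast_one, one_mul]; exact hz₀, ?_⟩
    rw [Nat.cast_one, one_mul, one_nsmul]
    exact hw₀
  have h2 : LadderAt W Q L z₀ 2 := ladder_two hdup hord hp3 L hg2 hg3 h1
  -- two-step induction
  have key : ∀ n : ℕ, (n + 1 < p → LadderAt W Q L z₀ (n + 1)) ∧
      (n + 2 < p → LadderAt W Q L z₀ (n + 2)) := by
    intro n
    induction n with
    | zero => exact ⟨fun _ => h1, fun _ => h2⟩
    | succ n ih =>
      refine ⟨fun h => ih.2 h, fun h => ?_⟩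
      exact ladder_step hadd hp hp2 hord L hg2 hg3 h h1 (ih.1 (by omega)) (ih.2 (by omega))
  have hall : ∀ k : ℕ, 0 < k → k < p → LadderAt W Q L z₀ k := by
    intro k hk0 hkp
    obtain ⟨n, rfl⟩ : ∃ n, k = n + 1 := ⟨k - 1, by omega⟩
    exact (key n).1 hkp
  refine ⟨z₀, hz₀, ?_, fun k hk0 hkp => hall k hk0 hkp⟩
  -- `p z₀ ∈ Λ`
  obtain ⟨hzm, hwm⟩ := hall (p - 1) (by omega) (by omega)
  obtain ⟨hzm2, -⟩ := hall (p - 2) (by omega) (by omega)
  have hneg : (p - 1) • Q = -Q := by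
    have hpQ : p • Q = 0 := by rw [← hord]; exact addOrderOf_nsmul_eq_zero Q
    have : (p - 1) • Q + Q = 0 := by
      rw [← succ_nsmul, show p - 1 + 1 = p by omega, hpQ]
    exact eq_neg_of_add_eq_zero_left this
  have hXm : Xs W ((p - 1) • Q) = Xs W Q := by
    rw [hneg]
    exact (Xs_eq_iff W).2 (xc_neg (EBar W) Q)
  have heq : ℘[L] (((p - 1 : ℕ) : ℂ) * z₀) = ℘[L] z₀ := by rw [hwm, hXm, hw₀]
  have e1 : ((p - 1 : ℕ) : ℂ) * z₀ - z₀ = ((p - 2 : ℕ) : ℂ) * z₀ := by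
    rw [Nat.cast_sub (by omega : 1 ≤ p), Nat.cast_sub (by omega : 2 ≤ p)]
    push_cast
    ring
  have e2 : ((p - 1 : ℕ) : ℂ) * z₀ + z₀ = (p : ℂ) * z₀ := by
    rw [Nat.cast_sub (by omega : 1 ≤ p)]
    push_cast
    ring
  rcases hinj L _ _ hzm hz₀ heq with h | h
  · rw [e1] at h
    exact absurd h hzm2
  · rw [e2] at h
    exact h

end ladder

end Fermat.Agent.S15.An.H87
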