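/-
S15 / BRIDGE / BR-AN, leaf AN-LADDER (helper87): the unconditional statement, from
AN-ADD, AN-INJ, AN-SURJ (helper45) and AN-DUP (helper11).
-/
import Fermat.Agent.S15.An.H87_Ladder
import Fermat.Agent.S15.An.H45_AddInjSurj
import Fermat.Agent.S15.An.H11_Dup

set_option autoImplicit false

namespace Fermat.Agent.S15.An.H87

/-- (AN-LADDER). -/
theorem stmt_ladder : Stmt_ladder :=
  stmt_ladder_of Fermat.Agent.S15.An.H45.stmt_add
    (Fermat.Agent.S15.An.H11.stmt_dup_of_add Fermat.Agent.S15.An.H45.stmt_add)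
    Fermat.Agent.S15.An.H45.stmt_inj Fermat.Agent.S15.An.H45.stmt_surj

end Fermat.Agent.S15.An.H87
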